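import Fermat.Prelude.Def_ModularCurve_X0
import Mathlib.Tactic.Ring

/-!
The effect of multiplying the level by a prime on the Dedekind psi function.
-/

set_option autoImplicit false

namespace FLTAgent.Hecke

open ModularCurve

/-- Squarefree divisors of `M` prime to `p`. -/
def sfCoprimeDivisors (M p : ℕ) : Finset ℕ := M.divisors.filter fun d => Squarefree d ∧ ¬ p ∣ d

theorem dedekindPsi_mul_prime_eq {M p : ℕ} (hM : M ≠ 0) (hp : p.Prime) :
    dedekindPsi (M * p) = (p + 1) * ∑ d ∈ sfCoprimeDivisors M p, M / d := by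
  classical
  rw [dedekindPsi, ← Finset.sum_filter_add_sum_filter_not _ (fun d => ¬ p ∣ d), add_mul, one_mul,
    Finset.mul_sum]
  congr 1
  · refine Finset.sum_congr ?_ fun d hd => ?_
    · ext d
      simp only [sfCoprimeDivisors, Finset.mem_filter, Nat.mem_divisors]
      constructor
      · rintro ⟨⟨⟨h1, _⟩, h2⟩, h3⟩
        exact ⟨⟨((hp.coprime_iff_not_dvd.mpr h3).symm).dvd_of_dvd_mul_right h1, hM⟩, h2, h3⟩
      · rintro ⟨⟨h1, _⟩, h2, h3⟩
        exact ⟨⟨⟨h1.mul_right p, mul_ne_zero hM hp.ne_zero⟩, h2⟩, h3⟩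
    · have hd' := (Nat.mem_divisors.mp (Finset.mem_filter.mp hd).1).1
      rw [mul_comm p, Nat.mul_div_right_comm hd']
  · refine Finset.sum_nbij' (fun d => d / p) (fun d => p * d) ?_ ?_ ?_ ?_ ?_
    · intro d hd
      simp only [Finset.mem_filter, Nat.mem_divisors, not_not] at hd
      obtain ⟨⟨⟨h1, _⟩, h2⟩, c, rfl⟩ := hd
      simp only [sfCoprimeDivisors, Finset.mem_filter, Nat.mem_divisors,
        Nat.mul_div_cancel_left _ hp.pos]
      refine ⟨⟨(mul_dvd_mul_iff_left hp.ne_zero).mp (by rwa [mul_comm M p] at h1), hM⟩,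
        h2.of_mul_right, fun hpc => ?_⟩
      exact hp.prime.not_isUnit (h2 p (mul_dvd_mul_left p hpc))
    · intro d hd
      simp only [sfCoprimeDivisors, Finset.mem_filter, Nat.mem_divisors] at hd
      simp only [Finset.mem_filter, Nat.mem_divisors, not_not]
      refine ⟨⟨⟨by rw [mul_comm M p]; exact mul_dvd_mul_left p hd.1.1, mul_ne_zero hM hp.ne_zero⟩,
        ?_⟩, dvd_mul_right p d⟩
      exact (Nat.squarefree_mul (hp.coprime_iff_not_dvd.mpr hd.2.2)).mpr ⟨hp.squarefree, hd.2.1⟩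
    · intro d hd
      simp only [Finset.mem_filter, not_not] at hd
      exact Nat.mul_div_cancel' hd.2
    · intro d _
      exact Nat.mul_div_cancel_left d hp.pos
    · intro d hd
      simp only [Finset.mem_filter, not_not] at hd
      obtain ⟨c, rfl⟩ := hd.2
      rw [Nat.mul_div_cancel_left _ hp.pos, mul_comm M p, Nat.mul_div_mul_left _ _ hp.pos]

theorem dedekindPsi_pos {M : ℕ} (hM : M ≠ 0) : 0 < dedekindPsi M := by
  rw [dedekindPsi]
  refine Finset.sum_pos' (fun _ _ => Nat.zero_le _) ⟨1, ?_, ?_⟩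
  · simp [hM]
  · rw [Nat.div_one]; omega

theorem dedekindPsi_mul_prime_of_not_dvd {M p : ℕ} (hM : M ≠ 0) (hp : p.Prime) (h : ¬ p ∣ M) :
    dedekindPsi (M * p) = (p + 1) * dedekindPsi M := by
  rw [dedekindPsi_mul_prime_eq hM hp, dedekindPsi, sfCoprimeDivisors]
  congr 1
  refine Finset.sum_congr (Finset.filter_congr fun d hd => ?_) fun _ _ => rfl
  exact and_iff_left fun h' => h (h'.trans (Nat.mem_divisors.mp hd).1)

theorem dedekindPsi_mul_prime_of_dvd {M p : ℕ} (hM : M ≠ 0) (hp : p.Prime) (h : p ∣ M) :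
    dedekindPsi (M * p) = p * dedekindPsi M := by
  obtain ⟨k, rfl⟩ := h
  have hk : k ≠ 0 := right_ne_zero_of_mul hM
  rw [dedekindPsi_mul_prime_eq hM hp, mul_comm p k, dedekindPsi_mul_prime_eq hk hp]
  have hset : sfCoprimeDivisors (k * p) p = sfCoprimeDivisors k p := by
    ext d
    simp only [sfCoprimeDivisors, Finset.mem_filter, Nat.mem_divisors]
    constructor
    · rintro ⟨⟨h1, _⟩, h2, h3⟩
      exact ⟨⟨((hp.coprime_iff_not_dvd.mpr h3).symm).dvd_of_dvd_mul_right h1, hk⟩, h2, h3⟩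
    · rintro ⟨⟨h1, _⟩, h2, h3⟩
      exact ⟨⟨h1.mul_right p, mul_ne_zero hk hp.ne_zero⟩, h2, h3⟩
  rw [hset, Finset.mul_sum, Finset.mul_sum, Finset.mul_sum]
  refine Finset.sum_congr rfl fun d hd => ?_
  rw [mul_comm k p, Nat.mul_div_assoc p (Nat.mem_divisors.mp (Finset.mem_filter.mp hd).1).1]
  ring

/-- Adjoining two distinct primes to the level multiplies the degrees independently. -/
theorem dedekindPsi_mul_mul {N l m : ℕ} (hN : N ≠ 0) (hl : l.Prime) (hm : m.Prime) (h : l ≠ m) :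
    dedekindPsi (N * l * m) * dedekindPsi N = dedekindPsi (N * l) * dedekindPsi (N * m) := by
  have hNl : N * l ≠ 0 := mul_ne_zero hN hl.ne_zero
  by_cases hd : m ∣ N
  · rw [dedekindPsi_mul_prime_of_dvd hNl hm (hd.mul_right l), dedekindPsi_mul_prime_of_dvd hN hm hd]
    ring
  · have hd' : ¬ m ∣ N * l := fun hh => (hm.dvd_mul.mp hh).elim hd fun hml =>
      h ((Nat.prime_dvd_prime_iff_eq hm hl).mp hml).symm
    rw [dedekindPsi_mul_prime_of_not_dvd hNl hm hd', dedekindPsi_mul_prime_of_not_dvd hN hm hd]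
    ring

end FLTAgent.Hecke
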