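import Fermat.Agent.Hecke.Approx
import Fermat.Prelude.Def_AlgebraicCurve_Correspondence
import Mathlib.RingTheory.Norm.Basic
import Mathlib.LinearAlgebra.FiniteDimensional.Lemmas
import Mathlib.LinearAlgebra.Dimension.Free
import Mathlib.LinearAlgebra.Dimension.OrzechProperty

/-!
Functoriality of pullback and pushforward of divisors along embeddings of function fields:
composites, equivariance under semilinear automorphisms, and the base change formula for
linearly disjoint squares.
-/

set_option autoImplicit false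
set_option linter.style.haveILetI false

noncomputable section

namespace FLTAgent.Hecke

open AlgebraicCurve

variable {K F A B Z : Type*} [Field K] [Field F] [Field A] [Field B] [Field Z]
  [Algebra K F] [Algebra K A] [Algebra K B] [Algebra K Z]

theorem isIntegral_comp {φ : F →ₐ[K] A} {ψ : A →ₐ[K] Z} (hφ : φ.toRingHom.IsIntegral)
    (hψ : ψ.toRingHom.IsIntegral) : (ψ.comp φ).toRingHom.IsIntegral :=
  RingHom.IsIntegral.trans φ.toRingHom ψ.toRingHom hφ hψ

theorem mem_restrictAlong_iff (φ : F →ₐ[K] A) (hφ : φ.toRingHom.IsIntegral) (w : Place K A)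
    (f : F) : f ∈ (w.restrictAlong φ hφ).toValuationSubring ↔ φ f ∈ w.toValuationSubring :=
  Iff.rfl

theorem restrictAlong_comp (φ : F →ₐ[K] A) (ψ : A →ₐ[K] Z) (hφ : φ.toRingHom.IsIntegral)
    (hψ : ψ.toRingHom.IsIntegral) (h : (ψ.comp φ).toRingHom.IsIntegral) (w : Place K Z) :
    w.restrictAlong (ψ.comp φ) h = (w.restrictAlong ψ hψ).restrictAlong φ hφ := by
  ext x
  rfl

theorem ramificationIndexAlong_comp (φ : F →ₐ[K] A) (ψ : A →ₐ[K] Z)
    (hφ : φ.toRingHom.IsIntegral) (hψ : ψ.toRingHom.IsIntegral) (w : Place K Z) :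
    (w.ramificationIndexAlong (ψ.comp φ) : ℤ)
      = w.ramificationIndexAlong ψ * (w.restrictAlong ψ hψ).ramificationIndexAlong φ := by
  obtain ⟨f, -, hf⟩ := exists_ord_eq_one
    ((w.restrictAlong ψ hψ).restrictAlong φ hφ)
  have h := Place.ord_restrictAlong (ψ.comp φ) (isIntegral_comp hφ hψ) w f
  rw [restrictAlong_comp φ ψ hφ hψ, hf, mul_one] at h
  rw [← h, AlgHom.comp_apply, Place.ord_restrictAlong ψ hψ w (φ f),
    Place.ord_restrictAlong φ hφ _ f, hf, mul_one]

theorem deg_restrictAlong_mul (φ : F →ₐ[K] A) (hφ : φ.toRingHom.IsIntegral) (w : Place K A) :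
    (w.restrictAlong φ hφ).deg * w.inertiaDegAlong φ hφ = w.deg := by
  letI := algebraAlong φ
  haveI := isScalarTower_along φ
  haveI := isIntegral_along φ hφ
  exact w.deg_restrict_mul_inertiaDeg (F := F)

theorem inertiaDegAlong_comp (φ : F →ₐ[K] A) (ψ : A →ₐ[K] Z) (hdeg : ∀ v : Place K F, 0 < v.deg)
    (hφ : φ.toRingHom.IsIntegral) (hψ : ψ.toRingHom.IsIntegral)
    (h : (ψ.comp φ).toRingHom.IsIntegral) (w : Place K Z) :
    w.inertiaDegAlong (ψ.comp φ) h
      = (w.restrictAlong ψ hψ).inertiaDegAlong φ hφ * w.inertiaDegAlong ψ hψ := by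
  have h1 := deg_restrictAlong_mul (ψ.comp φ) h w
  rw [restrictAlong_comp φ ψ hφ hψ h] at h1
  have h2 := deg_restrictAlong_mul φ hφ (w.restrictAlong ψ hψ)
  have h3 := deg_restrictAlong_mul ψ hψ w
  rw [← h2, ← h1, mul_assoc] at h3
  exact (mul_left_cancel₀ (hdeg _).ne' h3).symm

theorem pullbackAlong_congr [HasPrincipalDivisors K A] {φ φ' : F →ₐ[K] A} (e : φ = φ')
    (hφ : φ.toRingHom.IsIntegral) (hφ' : φ'.toRingHom.IsIntegral) (D : Divisor K F) :
    Divisor.pullbackAlong φ hφ D = Divisor.pullbackAlong φ' hφ' D := by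
  subst e; rfl

theorem pushforwardAlong_congr {φ φ' : F →ₐ[K] A} (e : φ = φ')
    (hφ : φ.toRingHom.IsIntegral) (hφ' : φ'.toRingHom.IsIntegral) (D : Divisor K A) :
    Divisor.pushforwardAlong φ hφ D = Divisor.pushforwardAlong φ' hφ' D := by
  subst e; rfl

theorem pullbackAlong_comp [HasPrincipalDivisors K A] [HasPrincipalDivisors K Z]
    (φ : F →ₐ[K] A) (ψ : A →ₐ[K] Z) (hφ : φ.toRingHom.IsIntegral)
    (hψ : ψ.toRingHom.IsIntegral) (h : (ψ.comp φ).toRingHom.IsIntegral) (D : Divisor K F) :
    Divisor.pullbackAlong (ψ.comp φ) h D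
      = Divisor.pullbackAlong ψ hψ (Divisor.pullbackAlong φ hφ D) := by
  ext w
  rw [Divisor.pullbackAlong_apply, Divisor.pullbackAlong_apply, Divisor.pullbackAlong_apply,
    restrictAlong_comp φ ψ hφ hψ, ramificationIndexAlong_comp φ ψ hφ hψ]
  ring

theorem pushforwardAlong_comp (φ : F →ₐ[K] A) (ψ : A →ₐ[K] Z)
    (hdeg : ∀ v : Place K F, 0 < v.deg)
    (hφ : φ.toRingHom.IsIntegral) (hψ : ψ.toRingHom.IsIntegral)
    (h : (ψ.comp φ).toRingHom.IsIntegral) (D : Divisor K Z) :
    Divisor.pushforwardAlong (ψ.comp φ) h D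
      = Divisor.pushforwardAlong φ hφ (Divisor.pushforwardAlong ψ hψ D) := by
  induction D using Finsupp.induction with
  | zero => simp
  | single_add w n D _ _ ih =>
      simp only [map_add, ih, Divisor.pushforwardAlong_single, restrictAlong_comp φ ψ hφ hψ h,
        inertiaDegAlong_comp φ ψ hdeg hφ hψ h]
      push_cast
      congr 2
      ring

theorem pushforwardAlong_apply_eq_zero (φ : F →ₐ[K] A) (hφ : φ.toRingHom.IsIntegral)
    (D : Divisor K A) (v : Place K F) (h : ∀ w, w.restrictAlong φ hφ = v → D w = 0) :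
    Divisor.pushforwardAlong φ hφ D v = 0 := by
  classical
  letI := algebraAlong φ
  haveI := isScalarTower_along φ
  haveI := isIntegral_along φ hφ
  show Divisor.pushforward F D v = 0
  rw [Divisor.pushforward_apply]
  refine Finset.sum_eq_zero fun w _ => ?_
  split
  · next hw => rw [h w hw, zero_mul]
  · rfl

section Semilinear

variable {g : SemilinearAut K F} {g' : SemilinearAut K A} (φ : F →ₐ[K] A)
  (hφ : φ.toRingHom.IsIntegral)
  (hg : SemilinearAut.IntertwinesAlong φ.toRingHom g g')

include hg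

theorem restrictAlong_smul (w : Place K A) :
    (g' • w).restrictAlong φ hφ = g • w.restrictAlong φ hφ := by
  ext x
  rw [mem_restrictAlong_iff, SemilinearAut.smul_toValuationSubring,
    SemilinearAut.smul_toValuationSubring, ValuationSubring.mem_pointwise_smul_iff_inv_smul_mem,
    ValuationSubring.mem_pointwise_smul_iff_inv_smul_mem, mem_restrictAlong_iff]
  rw [show g'⁻¹ • φ x = φ (g⁻¹ • x) from hg.inv x]

include hφ in
theorem ramificationIndexAlong_smul (w : Place K A) :
    (g' • w).ramificationIndexAlong φ = w.ramificationIndexAlong φ := by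
  obtain ⟨f, -, hf⟩ := exists_ord_eq_one (w.restrictAlong φ hφ)
  have h := Place.ord_restrictAlong φ hφ (g' • w) (g • f)
  rw [show φ (g • f) = g' • φ f from (hg f).symm, SemilinearAut.ord_smul,
    restrictAlong_smul φ hφ hg, SemilinearAut.ord_smul, Place.ord_restrictAlong φ hφ w f, hf,
    mul_one, mul_one] at h
  exact_mod_cast h.symm

theorem inertiaDegAlong_smul (hdeg : ∀ v : Place K F, 0 < v.deg) (w : Place K A) :
    (g' • w).inertiaDegAlong φ hφ = w.inertiaDegAlong φ hφ := by
  have h := deg_restrictAlong_mul φ hφ (g' • w)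
  rw [restrictAlong_smul φ hφ hg, SemilinearAut.deg_smul, SemilinearAut.deg_smul,
    ← deg_restrictAlong_mul φ hφ w] at h
  exact mul_left_cancel₀ (hdeg _).ne' h

theorem pullbackAlong_smul [HasPrincipalDivisors K A] (D : Divisor K F) :
    Divisor.pullbackAlong φ hφ (g • D) = g' • Divisor.pullbackAlong φ hφ D := by
  ext w
  obtain ⟨u, rfl⟩ : ∃ u, g' • u = w := ⟨g'⁻¹ • w, smul_inv_smul _ _⟩
  rw [SemilinearAut.divisor_smul_apply_smul, Divisor.pullbackAlong_apply,
    Divisor.pullbackAlong_apply, restrictAlong_smul φ hφ hg, SemilinearAut.divisor_smul_apply_smul,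
    ramificationIndexAlong_smul φ hφ hg]

theorem pushforwardAlong_smul (hdeg : ∀ v : Place K F, 0 < v.deg) (D : Divisor K A) :
    Divisor.pushforwardAlong φ hφ (g' • D) = g • Divisor.pushforwardAlong φ hφ D := by
  induction D using Finsupp.induction with
  | zero => simp
  | single_add w n D _ _ ih =>
      simp only [smul_add, map_add, ih, SemilinearAut.smul_single, Divisor.pushforwardAlong_single,
        restrictAlong_smul φ hφ hg, inertiaDegAlong_smul φ hφ hg hdeg]

end Semilinear

/-- The norm along an embedding. -/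
def normAlong (φ : F →ₐ[K] A) : A →* F :=
  letI := algebraAlong φ
  Algebra.norm F

theorem normAlong_ne_zero (φ : F →ₐ[K] A) (hfin : FiniteAlong K φ) {f : A} (hf : f ≠ 0) :
    normAlong φ f ≠ 0 := by
  letI := algebraAlong φ
  haveI : Module.Finite F A := hfin
  exact Algebra.norm_ne_zero_iff.mpr hf

theorem pushforwardAlong_of_normFormula (φ : F →ₐ[K] A) (hφ : φ.toRingHom.IsIntegral)
    (hfin : FiniteAlong K φ) (hN : NormFormulaAlong K φ hfin) {f : A} (hf : f ≠ 0)
    {D : Divisor K A} (hD : ∀ w, D w = w.ord f) (v : Place K F) :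
    Divisor.pushforwardAlong φ hφ D v = v.ord (normAlong φ f) := by
  letI := algebraAlong φ
  haveI := isScalarTower_along φ
  haveI := isIntegral_along φ hφ
  haveI : Module.Finite F A := hfin
  exact hN f hf D hD v

theorem pullbackAlong_apply_eq_ord [HasPrincipalDivisors K A] (φ : F →ₐ[K] A)
    (hφ : φ.toRingHom.IsIntegral) {f : F} {D : Divisor K F} (hD : ∀ v, D v = v.ord f)
    (w : Place K A) : Divisor.pullbackAlong φ hφ D w = w.ord (φ f) := by
  rw [Divisor.pullbackAlong_apply, hD, Place.ord_restrictAlong φ hφ]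

section BaseChange

variable (φ : F →ₐ[K] A) (ψ : F →ₐ[K] B) (φ' : B →ₐ[K] Z) (ψ' : A →ₐ[K] Z)

/-- In a square `ψ' ∘ φ = φ' ∘ ψ` in which `φ'` maps `B` onto generators of `Z` over `A` and the
degrees agree, the norm commutes with base change. -/
theorem normAlong_baseChange (hcomm : ∀ x, ψ' (φ x) = φ' (ψ x)) (hfin : FiniteAlong K ψ)
    (hrank : finrankAlong K ψ' = finrankAlong K ψ)
    (hgen : letI := algebraAlong ψ'; Algebra.adjoin A (Set.range φ') = ⊤) (f : B) :
    normAlong ψ' (φ' f) = φ (normAlong ψ f) := by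
  letI := algebraAlong ψ
  letI := algebraAlong ψ'
  haveI : Module.Finite F B := hfin
  classical
  let b := Module.finBasis F B
  let c : Fin (Module.finrank F B) → Z := fun i => φ' (b i)
  have hmap : ∀ (a : F) (x : B), φ' (a • x) = φ a • φ' x := fun a x => by
    rw [Algebra.smul_def, Algebra.smul_def, map_mul]
    exact congrArg (· * φ' x) (hcomm a).symm
  have hrep : ∀ x : B, φ' x = ∑ i, φ (b.repr x i) • c i := fun x => by
    conv_lhs => rw [← b.sum_repr x, map_sum]
    exact Finset.sum_congr rfl fun i _ => hmap _ _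
  have hspan : ⊤ ≤ Submodule.span A (Set.range c) := by
    intro z _
    have hz : z ∈ Submodule.span A (Set.range φ') := by
      have h0 : z ∈ Subalgebra.toSubmodule (Algebra.adjoin A (Set.range φ')) := by
        rw [hgen]; trivial
      rw [Algebra.adjoin_eq_span] at h0
      refine Submodule.span_mono ?_ h0
      rw [show Set.range φ' = ((MonoidHom.mrange (φ' : B →* Z) : Submonoid Z) : Set Z) from rfl,
        Submonoid.closure_eq]
    refine Submodule.span_le.mpr ?_ hz
    rintro _ ⟨x, rfl⟩
    rw [hrep x]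
    exact Submodule.sum_mem _ fun i _ => Submodule.smul_mem _ _ (Submodule.subset_span ⟨i, rfl⟩)
  have hcard : Fintype.card (Fin (Module.finrank F B)) = Module.finrank A Z := by
    rw [Fintype.card_fin]; exact hrank.symm
  let c' := basisOfTopLeSpanOfCardEqFinrank c hspan hcard
  have hc' : ∀ i, c' i = φ' (b i) := fun i => by
    show (basisOfTopLeSpanOfCardEqFinrank c hspan hcard) i = c i
    rw [coe_basisOfTopLeSpanOfCardEqFinrank]
  have hmat : Algebra.leftMulMatrix c' (φ' f) = φ.toRingHom.mapMatrix (Algebra.leftMulMatrix b f) := by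
    ext i j
    rw [RingHom.mapMatrix_apply, Matrix.map_apply, Algebra.leftMulMatrix_eq_repr_mul,
      Algebra.leftMulMatrix_eq_repr_mul]
    have h : φ' f * c' j = ∑ k, φ (b.repr (f * b j) k) • c' k := by
      simp only [hc']
      rw [← map_mul, hrep]
    rw [h, c'.repr_sum_self]
    rfl
  show Algebra.norm A (φ' f) = φ (Algebra.norm F f)
  rw [Algebra.norm_eq_matrix_det c', Algebra.norm_eq_matrix_det b, hmat, ← RingHom.map_det]
  rfl

/-- Base change: `φ^* ψ_* = ψ'_* φ'^*` when the norm commutes with base change. -/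
theorem pullbackAlong_pushforwardAlong [HasPrincipalDivisors K A] [HasPrincipalDivisors K B]
    [HasPrincipalDivisors K Z] (hcomm : ∀ x, ψ' (φ x) = φ' (ψ x))
    (hφ : φ.toRingHom.IsIntegral) (hψ : ψ.toRingHom.IsIntegral)
    (hφ' : φ'.toRingHom.IsIntegral) (hψ' : ψ'.toRingHom.IsIntegral)
    (hfin : FiniteAlong K ψ) (hN : NormFormulaAlong K ψ hfin)
    (hfin' : FiniteAlong K ψ') (hN' : NormFormulaAlong K ψ' hfin')
    (hnorm : ∀ f : B, normAlong ψ' (φ' f) = φ (normAlong ψ f)) (D : Divisor K B) :
    Divisor.pullbackAlong φ hφ (Divisor.pushforwardAlong ψ hψ D)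
      = Divisor.pushforwardAlong ψ' hψ' (Divisor.pullbackAlong φ' hφ' D) := by
  classical
  induction D using Finsupp.induction with
  | zero => simp
  | single_add W n D _ _ ih =>
    rw [map_add, map_add, map_add, map_add, ih]
    congr 1
    rw [show (Finsupp.single W n : Divisor K B) = n • (Finsupp.single W 1 : Divisor K B) by simp]
    simp only [map_zsmul]
    congr 1
    ext U
    set v := W.restrictAlong ψ hψ with hv
    -- the two places of `F` under a place of `Z` agree
    have hsq : ∀ T : Place K Z,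
        (T.restrictAlong ψ' hψ').restrictAlong φ hφ
          = (T.restrictAlong φ' hφ').restrictAlong ψ hψ := by
      intro T
      ext x
      simp only [mem_restrictAlong_iff, hcomm]
    by_cases hUv : U.restrictAlong φ hφ = v
    · obtain ⟨f, hf, hfW, hfS⟩ :=
        exists_ord_eq_one_forall_ord_eq_zero W (Place.fiberAlong ψ hψ v)
      obtain ⟨E, hE, -⟩ := HasPrincipalDivisors.exists_divisor (K := K) f hf
      set R : Divisor K B := E - Finsupp.single W 1 with hR
      have hR0 : ∀ w, w.restrictAlong ψ hψ = v → R w = 0 := by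
        intro w hw
        rcases eq_or_ne w W with rfl | hne
        · rw [hR, Finsupp.sub_apply, hE, hfW, Finsupp.single_eq_same, sub_self]
        · rw [hR, Finsupp.sub_apply, hE, hfS w (Place.mem_fiberAlong.mpr hw) hne,
            Finsupp.single_eq_of_ne hne, sub_zero]
      have h1 : Divisor.pullbackAlong φ hφ (Divisor.pushforwardAlong ψ hψ R) U = 0 := by
        rw [Divisor.pullbackAlong_apply, pushforwardAlong_apply_eq_zero ψ hψ R _
          (fun w hw => hR0 w (hw.trans hUv)), mul_zero]
      have h2 : Divisor.pushforwardAlong ψ' hψ' (Divisor.pullbackAlong φ' hφ' R) U = 0 := by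
        refine pushforwardAlong_apply_eq_zero ψ' hψ' _ _ fun T hT => ?_
        rw [Divisor.pullbackAlong_apply, hR0 _ (by rw [← hsq T, hT, hUv]), mul_zero]
      have hE1 : Divisor.pullbackAlong φ hφ (Divisor.pushforwardAlong ψ hψ E) U
          = U.ord (φ (normAlong ψ f)) :=
        pullbackAlong_apply_eq_ord φ hφ
          (fun u => pushforwardAlong_of_normFormula ψ hψ hfin hN hf hE u) U
      have hE2 : Divisor.pushforwardAlong ψ' hψ' (Divisor.pullbackAlong φ' hφ' E) U
          = U.ord (φ (normAlong ψ f)) := by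
        rw [pushforwardAlong_of_normFormula ψ' hψ' hfin' hN' (f := φ' f) (by simpa using hf)
          (fun T => pullbackAlong_apply_eq_ord φ' hφ' hE T) U, hnorm]
      have hWE : (Finsupp.single W 1 : Divisor K B) = E - R := by rw [hR, sub_sub_cancel]
      rw [hWE]
      simp only [map_sub, Finsupp.sub_apply, h1, h2, hE1, hE2]
    · rw [Divisor.pullbackAlong_apply, Divisor.pushforwardAlong_single,
        Finsupp.single_eq_of_ne hUv, mul_zero]
      refine (pushforwardAlong_apply_eq_zero ψ' hψ' _ _ fun T hT => ?_).symm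
      rw [Divisor.pullbackAlong_apply]
      rw [Finsupp.single_eq_of_ne (fun h => hUv ?_), mul_zero]
      rw [← hT, hsq T, h]

end BaseChange

end FLTAgent.Hecke
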