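import Fermat.Prelude.Def_ModularCurve_HeckeOperator
import Fermat.Prelude.Def_ModularCurve_JqCoeff
import Fermat.Agent.Hecke.Along
import Mathlib.FieldTheory.IntermediateField.Adjoin.Basic
import Mathlib.RingTheory.Algebraic.Integral

/-!
The degeneracy embeddings `x(q) ↦ x(q^d)` between the base changed modular function fields.
-/

set_option autoImplicit false
set_option linter.style.haveILetI false

noncomputable section

namespace FLTAgent.Hecke

open AlgebraicCurve ModularCurve IntermediateField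

variable (L : Type*) [Field L] [Algebra ℚ L]

/-- The function field of `X₀(M)` over `L`. -/
abbrev MF (M : ℕ) : IntermediateField L (LaurentSeries L) :=
  laurentBaseChange L (modularFunctionFieldFull M)

/-- The expansion `j(q^d)` over `L`. -/
abbrev jd (d : ℕ) [NeZero d] : LaurentSeries L := qExpand L d (jqModC L)

theorem coeffEmb_jq : coeffEmb L jq = jqModC L := by
  rw [← jqModC_rat, ← map_jqModC (algebraMap ℚ L)]
  rfl

theorem coeffEmb_qExpand (n : ℕ) [NeZero n] (x : LaurentSeries ℚ) :
    coeffEmb L (qExpand ℚ n x) = qExpand L n (coeffEmb L x) := by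
  ext k
  by_cases hk : (n : ℤ) ∣ k
  · obtain ⟨m, rfl⟩ := hk
    rw [coeffEmb_coeff, qExpand_coeff_mul, qExpand_coeff_mul, coeffEmb_coeff]
  · rw [coeffEmb_coeff, qExpand_coeff_of_not_dvd n _ hk, qExpand_coeff_of_not_dvd n _ hk,
      map_zero]

omit [Algebra ℚ L] in
theorem jd_one : jd L 1 = jqModC L := qExpand_one_apply _

omit [Algebra ℚ L] in
theorem jd_congr {d e : ℕ} [NeZero d] [NeZero e] (h : d = e) : jd L d = jd L e :=
  qExpand_congr h _

theorem jd_mem {d M : ℕ} [NeZero d] (h : d ∣ M) : jd L d ∈ MF L M := by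
  have := coeffEmb_mem_laurentBaseChange L (jqd_mem_full M h)
  rwa [coeffEmb_qExpand, coeffEmb_jq] at this

theorem MF_le_iff {M : ℕ} {T : IntermediateField L (LaurentSeries L)}
    (h : ∀ (d : ℕ) (_ : NeZero d), d ∣ M → jd L d ∈ T) : MF L M ≤ T := by
  have hsub : (modularFunctionFieldFull M).toSubfield ≤ T.toSubfield.comap (coeffEmb L) := by
    rw [modularFunctionFieldFull, IntermediateField.adjoin_toSubfield, Subfield.closure_le]
    rintro x (⟨a, rfl⟩ | ⟨d, hd, hdM, rfl⟩)
    · show coeffEmb L (algebraMap ℚ (LaurentSeries ℚ) a) ∈ T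
      rw [show coeffEmb L (algebraMap ℚ (LaurentSeries ℚ) a)
          = algebraMap L (LaurentSeries L) (algebraMap ℚ L a) by
        rw [algebraMap_apply_eq_single, algebraMap_laurentSeries_eq_single, coeffEmb,
          coeffMap_single]]
      exact T.algebraMap_mem _
    · show coeffEmb L (qExpand ℚ d jq) ∈ T
      rw [coeffEmb_qExpand, coeffEmb_jq]
      exact h d hd hdM
  rw [MF, laurentBaseChange, IntermediateField.adjoin_le_iff]
  rintro _ ⟨y, hy, rfl⟩
  exact hsub hy

theorem MF_eq_adjoin (M : ℕ) :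
    MF L M = adjoin L {x | ∃ (d : ℕ) (_ : NeZero d), d ∣ M ∧ x = jd L d} := by
  refine le_antisymm (MF_le_iff L fun d hd hdM => subset_adjoin L _ ⟨d, hd, hdM, rfl⟩) ?_
  rw [adjoin_le_iff]
  rintro _ ⟨d, hd, hdM, rfl⟩
  exact jd_mem L hdM

/-- `x(q) ↦ x(q^d)` as an `L`-algebra map. -/
def qExpandAlg (d : ℕ) [NeZero d] : LaurentSeries L →ₐ[L] LaurentSeries L :=
  { qExpand L d with
    commutes' := fun a => by
      show qExpand L d (algebraMap L (LaurentSeries L) a) = algebraMap L (LaurentSeries L) a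
      rw [algebraMap_laurentSeries_eq_single, qExpand_single, mul_zero] }

omit [Algebra ℚ L] in
theorem qExpandAlg_apply (d : ℕ) [NeZero d] (x : LaurentSeries L) :
    qExpandAlg L d x = qExpand L d x := rfl

theorem qExpand_mem_MF {M M' d : ℕ} [NeZero d] (h : M * d ∣ M') {x : LaurentSeries L}
    (hx : x ∈ MF L M) : qExpand L d x ∈ MF L M' := by
  have hle : MF L M ≤ (MF L M').comap (qExpandAlg L d) := by
    refine MF_le_iff L fun e he heM => ?_
    show qExpand L d (jd L e) ∈ MF L M'
    rw [jd, qExpand_qExpand]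
    exact jd_mem L (dvd_trans (by rw [mul_comm]; exact Nat.mul_dvd_mul_right heM d) h)
  exact hle hx

/-- The degeneracy map `F_M → F_{M'}`, `x(q) ↦ x(q^d)`, for `M * d ∣ M'`. -/
def degMap {M M' : ℕ} (d : ℕ) [NeZero d] (h : M * d ∣ M') : MF L M →ₐ[L] MF L M' :=
  ((qExpandAlg L d).comp (MF L M).val).codRestrict (MF L M').toSubalgebra
    fun x => qExpand_mem_MF L h x.2

@[simp]
theorem coe_degMap {M M' : ℕ} (d : ℕ) [NeZero d] (h : M * d ∣ M') (x : MF L M) :
    (degMap L d h x : LaurentSeries L) = qExpand L d (x : LaurentSeries L) := rfl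

theorem degMap_comp {M M' M'' : ℕ} (d e f : ℕ) [NeZero d] [NeZero e] [NeZero f]
    (h : M * d ∣ M') (h' : M' * e ∣ M'') (h'' : M * f ∣ M'') (hf : e * d = f) :
    (degMap L e h').comp (degMap L d h) = degMap L f h'' := by
  refine AlgHom.ext fun x => Subtype.ext ?_
  rw [AlgHom.comp_apply, coe_degMap, coe_degMap, coe_degMap, qExpand_qExpand]
  exact qExpand_congr hf _

theorem degMap_comm {M A B Z : ℕ} (a b a' b' : ℕ) [NeZero a] [NeZero b] [NeZero a'] [NeZero b']
    (ha : M * a ∣ A) (hb : M * b ∣ B) (ha' : A * a' ∣ Z) (hb' : B * b' ∣ Z) (h : a' * a = b' * b)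
    (x : MF L M) : degMap L a' ha' (degMap L a ha x) = degMap L b' hb' (degMap L b hb x) := by
  refine Subtype.ext ?_
  rw [coe_degMap, coe_degMap, coe_degMap, coe_degMap, qExpand_qExpand, qExpand_qExpand]
  exact qExpand_congr h _

theorem heckeAlphaBar_eq_degMap (N l : ℕ) [NeZero N] [NeZero l] :
    heckeAlphaBar L N l = degMap L 1 (by rw [mul_one]; exact dvd_mul_right N l) := by
  refine AlgHom.ext fun x => Subtype.ext ?_
  rw [coe_heckeAlphaBar, coe_degMap, qExpand_one_apply]

theorem heckeBetaBar_eq_degMap (N l : ℕ) [NeZero N] [NeZero l] :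
    heckeBetaBar L N l = degMap L l dvd_rfl :=
  AlgHom.ext fun x => Subtype.ext (by rw [coe_heckeBetaBar, coe_degMap])

section Finite

theorem transcendental_jd (d : ℕ) [NeZero d] : Transcendental L (jd L d) := by
  rw [transcendental_iff_injective, injective_iff_map_eq_zero]
  intro P hP
  by_contra hP0
  have hcoeff := congrArg (fun x : LaurentSeries L => x.coeff (-((d : ℤ) * P.natDegree))) hP
  simp only [Polynomial.aeval_eq_sum_range, HahnSeries.coeff_sum, HahnSeries.coeff_zero] at hcoeff
  rw [Finset.sum_eq_single P.natDegree (fun i hi hne => ?_) (fun h => absurd (by simp) h)] at hcoeff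
  · rw [jd, ← map_pow, Algebra.smul_def, algebraMap_laurentSeries_eq_single,
      HahnSeries.coeff_single_zero_mul, ← mul_neg, qExpand_coeff_mul, jqModC_pow_coeff_top,
      mul_one] at hcoeff
    exact hP0 (Polynomial.leadingCoeff_eq_zero.mp hcoeff)
  · have hi' : i < P.natDegree := by
      have := Finset.mem_range.mp hi
      omega
    rw [jd, ← map_pow, Algebra.smul_def, algebraMap_laurentSeries_eq_single,
      HahnSeries.coeff_single_zero_mul, ← mul_neg, qExpand_coeff_mul,
      jqModC_pow_coeff_of_lt _ (by omega), mul_zero]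
where
  jqModC_pow_coeff_top (n : ℕ) : (jqModC L ^ n).coeff (-(n : ℤ)) = 1 := by
    rw [← coeffEmb_jq, ← map_pow, coeffEmb_coeff, coeff_jq_pow_self, map_one]
  jqModC_pow_coeff_of_lt {m : ℤ} (n : ℕ) (hm : m < -(n : ℤ)) :
      (jqModC L ^ n).coeff m = 0 := by
    rw [← coeffEmb_jq, ← map_pow, coeffEmb_coeff, coeff_jq_pow_of_lt hm, map_zero]

end Finite

end FLTAgent.Hecke
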