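import Fermat.Agent.Hecke.Operators

/-!
The Hecke correspondence on a single place and on principal multiples.
-/

set_option autoImplicit false
set_option linter.style.haveILetI false

noncomputable section

namespace FLTAgent.Hecke

open AlgebraicCurve ModularCurve

variable {L : Type*} [Field L] [Algebra ℚ L]

omit [Algebra ℚ L] in
theorem inertiaDegAlong_eq_one {F A : Type*} [Field F] [Field A] [Algebra L F] [Algebra L A]
    (φ : F →ₐ[L] A) (hφ : φ.toRingHom.IsIntegral) (w : Place L A) (hw : w.deg = 1) :
    w.inertiaDegAlong φ hφ = 1 := by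
  have h := deg_restrictAlong_mul φ hφ w
  rw [hw] at h
  exact Nat.eq_one_of_mul_eq_one_left h

theorem heckeDivBar_single (N l : ℕ) [NeZero N] [NeZero l]
    [HasPrincipalDivisors L (MF L (N * l))]
    (hα : HeckeAlphaBarIntegral L N l) (hβ : HeckeBetaBarIntegral L N l)
    (hdeg : ∀ W : Place L (MF L (N * l)), W.deg = 1) (v : Place L (MF L N)) (n : ℤ) :
    heckeDivBar hα hβ (Finsupp.single v n)
      = ∑ W ∈ Place.fiberAlong (heckeBetaBar L N l) hβ v,
          Finsupp.single (W.restrictAlong (heckeAlphaBar L N l) hα)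
            (n * W.ramificationIndexAlong (heckeBetaBar L N l)) := by
  have hα' : (heckeAlphaBar L N l).toRingHom.IsIntegral := hα
  have hβ' : (heckeBetaBar L N l).toRingHom.IsIntegral := hβ
  show Divisor.pushforwardAlong (heckeAlphaBar L N l) hα'
    (Divisor.pullbackAlong (heckeBetaBar L N l) hβ' _)
      = ∑ W ∈ Place.fiberAlong (heckeBetaBar L N l) hβ' v,
          Finsupp.single (W.restrictAlong (heckeAlphaBar L N l) hα')
            (n * W.ramificationIndexAlong (heckeBetaBar L N l))
  rw [Divisor.pullbackAlong_single, map_sum]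
  refine Finset.sum_congr rfl fun W _ => ?_
  rw [Divisor.pushforwardAlong_single, inertiaDegAlong_eq_one _ hα' W (hdeg W), Nat.cast_one,
    mul_one]

theorem heckeDivBar_apply_of_apply_eq_ord (N l : ℕ) [NeZero N] [NeZero l]
    [HasPrincipalDivisors L (MF L (N * l))]
    (hα : HeckeAlphaBarIntegral L N l) (hβ : HeckeBetaBarIntegral L N l)
    (hfin : FiniteAlong L (heckeAlphaBar L N l))
    (hN : NormFormulaAlong L (heckeAlphaBar L N l) hfin)
    {D : Divisor L (MF L N)} {f : MF L N} (hf : f ≠ 0) (hD : ∀ v, D v = v.ord f)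
    (v : Place L (MF L N)) :
    heckeDivBar hα hβ D v
      = v.ord (normAlong (heckeAlphaBar L N l) (heckeBetaBar L N l f)) :=
  pushforwardAlong_of_normFormula (heckeAlphaBar L N l) hα hfin hN
    (f := heckeBetaBar L N l f) (by simpa using hf)
    (fun w => pullbackAlong_apply_eq_ord (heckeBetaBar L N l) hβ hD w) v

end FLTAgent.Hecke
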