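import Fermat.Agent.Hecke.Generation
import Fermat.Agent.ModPoly.Generation

/-!
The Hecke operators on `JZero N` commute.
-/

set_option autoImplicit false

noncomputable section

namespace FLTAgent.Hecke

open AlgebraicCurve ModularCurve

theorem functionFieldGeneration_all (M : ℕ) [NeZero M] : FunctionFieldGeneration M :=
  ModPoly.functionFieldGeneration M

/-- Generation and degree of all the modular function fields. -/
theorem degreeFacts (L : Type*) [Field L] [Algebra ℚ L] : DegreeFacts L :=
  degreeFacts_of_generation L fun M _ => ModPoly.functionFieldGeneration M

/-- The Hecke operators on `JZero N` commute. -/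
theorem heckeOperatorsCommuteBar (N : ℕ) [NeZero N] : HeckeOperatorsCommuteBar N :=
  heckeOperatorsCommuteBar_of_generation (fun M _ => ModPoly.functionFieldGeneration M) N

end FLTAgent.Hecke
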