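import Fermat.Agent.Hecke.Facts
import Fermat.Agent.ModPoly.Rational

/-!
Unconditional inputs of the Hecke correspondences and Galois compatibility.
-/

set_option autoImplicit false
set_option linter.style.haveILetI false

noncomputable section

namespace FLTAgent.Hecke

open AlgebraicCurve ModularCurve

variable (L : Type*) [Field L] [Algebra ℚ L]

theorem nonempty_modularPolynomialData (d : ℕ) [NeZero d] : Nonempty (ModularPolynomialData d) :=
  ⟨ModPoly.modularPolynomialData d⟩

theorem levelFacts : LevelFacts L := levelFacts_of_data fun d _ => nonempty_modularPolynomialData d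

/-- `F_M` is a function field of one variable over `L`. -/
theorem isFunctionField_level (M : ℕ) [NeZero M] :
    FunctionField.IsFunctionField L (MF L M) :=
  isFunctionField_MF L (fun d _ => nonempty_modularPolynomialData d) M

theorem hasPrincipalDivisors_level (M : ℕ) [NeZero M] : HasPrincipalDivisors L (MF L M) :=
  (levelFacts L).principal M

theorem heckeInputsAlong (N l : ℕ) [NeZero N] [NeZero l] : HeckeInputsAlong L N l :=
  heckeInputsAlong_of_facts (levelFacts L) N l

theorem heckeOperatorBar_galois_smul (N : ℕ) [NeZero N] (l : Nat.Primes)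
    (σ : AlgebraicClosure ℚ ≃ₐ[ℚ] AlgebraicClosure ℚ) (x : JZero N) :
    heckeOperatorBar N l (σ • x) = σ • heckeOperatorBar N l x :=
  heckeOperatorBar_galois_smul_of_facts N (levelFacts _) l σ x

theorem smulCommClass_heckeModuleBar (N : ℕ) [NeZero N] :
    letI := heckeModuleBar N
    SMulCommClass (AlgebraicClosure ℚ ≃ₐ[ℚ] AlgebraicClosure ℚ) HeckeAlg (JZero N) :=
  smulCommClass_heckeModuleBar_of_facts N (levelFacts _)

end FLTAgent.Hecke
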