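import Fermat.Prelude.Def_AlgebraicCurve_DivisorClassGroup
import Mathlib.Tactic.Linarith

/-!
Weak approximation for a finite set of places of a field `F` over `K`.
-/

set_option autoImplicit false

noncomputable section

namespace FLTAgent.Hecke

open AlgebraicCurve

variable {K F : Type*} [Field K] [Field F] [Algebra K F]

theorem ord_add_min (v : Place K F) {f g : F} (hfg : f + g ≠ 0) (hf : f ≠ 0) (hg : g ≠ 0) :
    min (v.ord f) (v.ord g) ≤ v.ord (f + g) := by
  have h := v.adicValuation.map_add f g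
  have hf' := v.adicValuation_ne_zero hf
  have hg' := v.adicValuation_ne_zero hg
  have hfg' := v.adicValuation_ne_zero hfg
  rcases le_max_iff.mp h with h | h
  · have := (WithZero.log_le_log hfg' hf').mpr h
    simp only [Place.ord]
    omega
  · have := (WithZero.log_le_log hfg' hg').mpr h
    simp only [Place.ord]
    omega

theorem ord_neg (v : Place K F) (f : F) : v.ord (-f) = v.ord f := by
  simp only [Place.ord, Valuation.map_neg]

theorem add_ne_zero_of_ord_lt (v : Place K F) {f g : F} (h : v.ord f < v.ord g) : f + g ≠ 0 := by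
  intro h0
  rw [eq_neg_of_add_eq_zero_left h0, ord_neg] at h
  exact lt_irrefl _ h

theorem ord_add_eq_left (v : Place K F) {f g : F} (hf : f ≠ 0) (hg : g ≠ 0)
    (h : v.ord f < v.ord g) : v.ord (f + g) = v.ord f := by
  have hne := add_ne_zero_of_ord_lt v h
  have h1 := ord_add_min v hne hf hg
  have hne' : f + g + (-g) ≠ 0 := by simpa using hf
  have h2 := ord_add_min v hne' hne (neg_ne_zero.mpr hg)
  rw [add_neg_cancel_right, ord_neg] at h2
  omega

theorem mem_iff_ord_nonneg' (v : Place K F) {f : F} (hf : f ≠ 0) :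
    f ∈ v.toValuationSubring ↔ 0 ≤ v.ord f := by
  obtain ⟨π, hπ⟩ := IsDiscreteValuationRing.exists_irreducible v.toValuationSubring
  constructor
  · intro hmem
    obtain ⟨n, u, hu⟩ := IsDiscreteValuationRing.eq_unit_mul_pow_irreducible
      (x := (⟨f, hmem⟩ : v.toValuationSubring)) (by simpa [Subtype.ext_iff] using hf) hπ
    have hcoe : f = ((u : v.toValuationSubring) : F) * ((π : F) ^ (n : ℤ)) := by
      have h := congrArg Subtype.val hu
      push_cast at h
      rw [zpow_natCast]
      exact h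
    rw [hcoe, v.ord_unit_smul_zpow u hπ (n : ℤ)]
    exact Int.natCast_nonneg n
  · intro h
    obtain ⟨u, hu⟩ := v.exists_unit_mul_zpow hf hπ
    rw [hu, ← Int.toNat_of_nonneg h, zpow_natCast]
    exact mul_mem (u : v.toValuationSubring).2 (pow_mem (π : v.toValuationSubring).2 _)

theorem exists_ord_eq_one (v : Place K F) : ∃ f : F, f ≠ 0 ∧ v.ord f = 1 := by
  obtain ⟨π, hπ⟩ := IsDiscreteValuationRing.exists_irreducible v.toValuationSubring
  exact ⟨π, by simpa [ne_eq, ZeroMemClass.coe_eq_zero] using hπ.ne_zero,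
    v.ord_coe_irreducible hπ⟩

theorem ord_pow' (v : Place K F) (f : F) (n : ℕ) : v.ord (f ^ n) = n * v.ord f := by
  rw [← zpow_natCast, v.ord_zpow]

/-- The valuation ring of a place is maximal among the proper valuation rings. -/
theorem eq_of_le_toValuationSubring {v w : Place K F}
    (h : v.toValuationSubring ≤ w.toValuationSubring) : v = w := by
  apply Place.ext
  refine le_antisymm h fun x hx => ?_
  by_contra hxv
  -- `x` has a pole at `v`; powers of `x` absorb any pole, so `w` would be everything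
  apply w.ne_top'
  refine SetLike.ext fun y => ⟨fun _ => ValuationSubring.mem_top y, fun _ => ?_⟩
  rcases eq_or_ne y 0 with rfl | hy
  · exact zero_mem _
  have hx0 : x ≠ 0 := fun h0 => hxv (h0 ▸ zero_mem _)
  have hxneg : v.ord x < 0 := by
    by_contra h0
    exact hxv ((mem_iff_ord_nonneg' v hx0).mpr (by omega))
  set n : ℕ := (-(v.ord y)).toNat
  have hxi : v.ord (x⁻¹ ^ n) = n * -v.ord x := by rw [ord_pow', v.ord_inv]
  have hmem : y * x⁻¹ ^ n ∈ v.toValuationSubring := by
    refine (mem_iff_ord_nonneg' v (mul_ne_zero hy (pow_ne_zero _ (inv_ne_zero hx0)))).mpr ?_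
    rw [v.ord_mul hy (pow_ne_zero _ (inv_ne_zero hx0)), hxi]
    have : (n : ℤ) * 1 ≤ n * -v.ord x := mul_le_mul_of_nonneg_left (by omega) (by omega)
    omega
  have := mul_mem (h hmem) (pow_mem hx n)
  rwa [mul_assoc, ← mul_pow, inv_mul_cancel₀ hx0, one_pow, mul_one] at this

theorem exists_ord_neg_nonneg {v w : Place K F} (hvw : v ≠ w) :
    ∃ a : F, a ≠ 0 ∧ v.ord a < 0 ∧ 0 ≤ w.ord a := by
  have : ¬ w.toValuationSubring ≤ v.toValuationSubring := fun h =>
    hvw (eq_of_le_toValuationSubring h).symm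
  obtain ⟨a, haw, hav⟩ := SetLike.not_le_iff_exists.mp this
  have ha : a ≠ 0 := fun h0 => hav (h0 ▸ zero_mem _)
  refine ⟨a, ha, ?_, (mem_iff_ord_nonneg' w ha).mp haw⟩
  by_contra h0
  exact hav ((mem_iff_ord_nonneg' v ha).mpr (by omega))

theorem exists_ord_neg_pos {v w : Place K F} (hvw : v ≠ w) :
    ∃ z : F, z ≠ 0 ∧ v.ord z < 0 ∧ 0 < w.ord z := by
  obtain ⟨a, ha, hav, haw⟩ := exists_ord_neg_nonneg hvw
  obtain ⟨b, hb, hbw, hbv⟩ := exists_ord_neg_nonneg (Ne.symm hvw)
  refine ⟨a / b, div_ne_zero ha hb, ?_, ?_⟩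
  all_goals rw [div_eq_mul_inv, Place.ord_mul _ ha (inv_ne_zero hb), Place.ord_inv]; omega

/-- For finitely many places other than `W`, an element with a pole at `W` and zeros there. -/
theorem exists_ord_neg_forall_pos (W : Place K F) (S : Finset (Place K F)) (hW : W ∉ S) :
    ∃ z : F, z ≠ 0 ∧ W.ord z < 0 ∧ ∀ U ∈ S, 0 < U.ord z := by
  classical
  induction S using Finset.induction with
  | empty =>
      obtain ⟨f, hf, hf1⟩ := exists_ord_eq_one W
      exact ⟨f⁻¹, inv_ne_zero hf, by rw [W.ord_inv]; omega, by simp⟩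
  | insert U T hUT ih =>
      rw [Finset.mem_insert, not_or] at hW
      obtain ⟨z, hz, hzW, hzT⟩ := ih hW.2
      obtain ⟨y, hy, hyW, hyU⟩ := exists_ord_neg_pos hW.1
      -- a large exponent
      obtain ⟨k, hk⟩ : ∃ k : ℕ, ∀ V ∈ T, -(V.ord y) < k := by
        refine ⟨T.sum (fun V => (-(V.ord y)).toNat) + 1, fun V hV => ?_⟩
        have := Finset.single_le_sum (f := fun V : Place K F => (-(V.ord y)).toNat)
          (fun _ _ => Nat.zero_le _) hV
        omega
      have hT : ∀ V ∈ T, (k : ℤ) ≤ k * V.ord z := fun V hV =>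
        le_mul_of_one_le_right (by omega) (hzT V hV)
      rcases lt_trichotomy (U.ord z) 0 with hU | hU | hU
      · set n : ℕ := k + 1 with hn
        have hnpos : (0 : ℤ) < (n : ℤ) := by omega
        have hzn : z ^ n ≠ 0 := pow_ne_zero _ hz
        have key : ∀ V : Place K F, V.ord z < 0 → z ^ n + 1 ≠ 0 ∧ V.ord (z ^ n + 1) = V.ord (z ^ n) := by
          intro V hV
          have h1 : V.ord (z ^ n) < V.ord (1 : F) := by
            rw [ord_pow', V.ord_one]; exact mul_neg_of_pos_of_neg hnpos hV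
          exact ⟨add_ne_zero_of_ord_lt V h1, ord_add_eq_left V hzn one_ne_zero h1⟩
        obtain ⟨hne, hWeq⟩ := key W hzW
        obtain ⟨-, hUeq⟩ := key U hU
        refine ⟨z ^ n / (z ^ n + 1) * y, mul_ne_zero (div_ne_zero hzn hne) hy, ?_, ?_⟩
        · rw [W.ord_mul (div_ne_zero hzn hne) hy, div_eq_mul_inv,
            W.ord_mul hzn (inv_ne_zero hne), W.ord_inv, hWeq]
          omega
        · intro V hV
          rw [V.ord_mul (div_ne_zero hzn hne) hy, div_eq_mul_inv,
            V.ord_mul hzn (inv_ne_zero hne), V.ord_inv]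
          rcases Finset.mem_insert.mp hV with rfl | hVT
          · rw [hUeq]; omega
          · have hzp : 0 < V.ord (z ^ n) := by
              rw [ord_pow']; exact mul_pos hnpos (hzT V hVT)
            have h1 : V.ord (z ^ n + 1) = 0 := by
              rw [add_comm, ord_add_eq_left V one_ne_zero hzn (by rwa [V.ord_one]), V.ord_one]
            have h2 : (k : ℤ) + 1 ≤ V.ord (z ^ n) := by
              rw [ord_pow']
              have := le_mul_of_one_le_right (a := (n : ℤ)) (by omega) (hzT V hVT)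
              omega
            have := hk V hVT
            omega
      · refine ⟨z ^ k * y, mul_ne_zero (pow_ne_zero _ hz) hy, ?_, fun V hV => ?_⟩
        · rw [W.ord_mul (pow_ne_zero _ hz) hy, ord_pow']
          have : (k : ℤ) * W.ord z ≤ 0 := mul_nonpos_of_nonneg_of_nonpos (by omega) (by omega)
          omega
        · rw [V.ord_mul (pow_ne_zero _ hz) hy, ord_pow']
          rcases Finset.mem_insert.mp hV with rfl | hVT
          · rw [hU]; simpa using hyU
          · have := hk V hVT; have := hT V hVT; omega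
      · refine ⟨z, hz, hzW, fun V hV => ?_⟩
        rcases Finset.mem_insert.mp hV with rfl | hVT
        · exact hU
        · exact hzT V hVT

/-- Weak approximation: order `1` at `W` and `0` at finitely many other places. -/
theorem exists_ord_eq_one_forall_ord_eq_zero (W : Place K F) (S : Finset (Place K F)) :
    ∃ f : F, f ≠ 0 ∧ W.ord f = 1 ∧ ∀ U ∈ S, U ≠ W → U.ord f = 0 := by
  classical
  obtain ⟨z, hz, hzW, hzS⟩ := exists_ord_neg_forall_pos W (S.erase W) (Finset.notMem_erase W S)
  obtain ⟨p, hp, hp1⟩ := exists_ord_eq_one W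
  obtain ⟨k, hk, hkS⟩ : ∃ k : ℕ, 2 ≤ k ∧ ∀ U ∈ S, -(U.ord p) < k := by
    refine ⟨S.sum (fun U => (-(U.ord p)).toNat) + 2, by omega, fun U hU => ?_⟩
    have := Finset.single_le_sum (f := fun U : Place K F => (-(U.ord p)).toNat)
      (fun _ _ => Nat.zero_le _) hU
    omega
  have hzk : z ^ k ≠ 0 := pow_ne_zero _ hz
  have hW' : W.ord (z ^ k) ≤ -(k : ℤ) := by
    rw [ord_pow']
    have := mul_le_mul_of_nonneg_left (show W.ord z ≤ -1 by omega) (show (0:ℤ) ≤ k by omega)
    omega
  have hlt : W.ord (p * z ^ k) < W.ord (1 : F) := by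
    rw [W.ord_mul hp hzk, W.ord_one]; omega
  have hden : z ^ k + 1 ≠ 0 := add_ne_zero_of_ord_lt W (by rw [W.ord_one]; omega)
  have hdenW : W.ord (z ^ k + 1) = W.ord (z ^ k) :=
    ord_add_eq_left W hzk one_ne_zero (by rw [W.ord_one]; omega)
  have hnum : p * z ^ k + 1 ≠ 0 := add_ne_zero_of_ord_lt W hlt
  refine ⟨(p * z ^ k + 1) / (z ^ k + 1), div_ne_zero hnum hden, ?_, fun U hU hne => ?_⟩
  · rw [div_eq_mul_inv, W.ord_mul hnum (inv_ne_zero hden), W.ord_inv, hdenW,
      ord_add_eq_left W (mul_ne_zero hp hzk) one_ne_zero hlt, W.ord_mul hp hzk]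
    omega
  · have h1 : (k : ℤ) ≤ U.ord (z ^ k) := by
      rw [ord_pow']
      exact le_mul_of_one_le_right (by omega) (hzS U (Finset.mem_erase.mpr ⟨hne, hU⟩))
    have h2 := hkS U hU
    have hden0 : U.ord (z ^ k + 1) = 0 := by
      rw [add_comm, ord_add_eq_left U one_ne_zero hzk (by rw [U.ord_one]; omega), U.ord_one]
    have hnum0 : U.ord (p * z ^ k + 1) = 0 := by
      rw [add_comm, ord_add_eq_left U one_ne_zero (mul_ne_zero hp hzk)
        (by rw [U.ord_one, U.ord_mul hp hzk]; omega), U.ord_one]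
    rw [div_eq_mul_inv, U.ord_mul hnum (inv_ne_zero hden), U.ord_inv, hden0, hnum0]
    omega

end FLTAgent.Hecke
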