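import Fermat.Agent.Hecke.Compose
import Fermat.Prelude.Def_ModularCurve_HeckeModule

/-!
Hecke operators on the degree zero class group: inputs, formula on divisors, commutation and
compatibility with the Galois action, from `LevelFacts` (and `DegreeFacts`).
-/

set_option autoImplicit false
set_option linter.style.haveILetI false

noncomputable section

namespace FLTAgent.Hecke

open AlgebraicCurve ModularCurve

section General

variable {L : Type*} [Field L] [Algebra ℚ L] (H : LevelFacts L) (N l : ℕ) [NeZero N] [NeZero l]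

include H

theorem alphaBarIntegral_of_facts : HeckeAlphaBarIntegral L N l := by
  show (heckeAlphaBar L N l).toRingHom.IsIntegral
  rw [heckeAlphaBar_eq_degMap]
  exact H.integral 1 _

theorem betaBarIntegral_of_facts : HeckeBetaBarIntegral L N l := by
  show (heckeBetaBar L N l).toRingHom.IsIntegral
  rw [heckeBetaBar_eq_degMap]
  exact H.integral l _

theorem alphaBar_finiteAlong_of_facts : FiniteAlong L (heckeAlphaBar L N l) := by
  rw [heckeAlphaBar_eq_degMap]
  exact H.finite _ _ 1 _

theorem betaBar_finiteAlong_of_facts : FiniteAlong L (heckeBetaBar L N l) := by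
  rw [heckeBetaBar_eq_degMap]
  exact H.finite _ _ l _

theorem heckeInputsAlong_of_facts : HeckeInputsAlong L N l := by
  haveI := H.principal (N * l)
  refine heckeInputsAlong_intro (alphaBarIntegral_of_facts H N l) (betaBarIntegral_of_facts H N l)
    ?_ (alphaBar_finiteAlong_of_facts H N l) ?_
  · have aux : ∀ (φ : MF L N →ₐ[L] MF L (N * l)) (hφ : φ.toRingHom.IsIntegral),
        φ = degMap L l dvd_rfl → FundamentalIdentityAlong L φ hφ := by
      rintro φ hφ rfl
      exact H.fundamental _ _ l _ hφ
    exact aux _ _ (heckeBetaBar_eq_degMap L N l)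
  · have aux : ∀ (φ : MF L N →ₐ[L] MF L (N * l)) (hφ : FiniteAlong L φ) (h : N * 1 ∣ N * l),
        φ = degMap L 1 h → NormFormulaAlong L φ hφ := by
      rintro φ hφ h rfl
      exact H.norm _ _ 1 _ hφ
    exact aux _ _ _ (heckeAlphaBar_eq_degMap L N l)

/-- The Hecke operator on a divisor class. -/
theorem heckeOperatorAlong_mk (D : Divisor.degZero (K := L) (F := MF L N))
    (hα : HeckeAlphaBarIntegral L N l) (hβ : HeckeBetaBarIntegral L N l)
    [HasPrincipalDivisors L (MF L (N * l))]
    (hmem : heckeDivBar hα hβ (D : Divisor L (MF L N)) ∈ Divisor.degZero (K := L) (F := MF L N)) :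
    heckeOperatorAlong L N l (Pic0.mk D) = Pic0.mk ⟨heckeDivBar hα hβ (D : Divisor L (MF L N)), hmem⟩ := by
  obtain ⟨_, _, _, hfin, hFI, hN⟩ := heckeInputsAlong_of_facts H N l
  rw [heckeOperatorAlong_eq hα hβ hFI hfin hN]
  rfl

theorem heckeDivBar_mem_degZero [HasPrincipalDivisors L (MF L (N * l))]
    (hα : HeckeAlphaBarIntegral L N l) (hβ : HeckeBetaBarIntegral L N l)
    (D : Divisor.degZero (K := L) (F := MF L N)) :
    heckeDivBar hα hβ (D : Divisor L (MF L N)) ∈ Divisor.degZero (K := L) (F := MF L N) := by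
  obtain ⟨_, _, _, _, hFI, _⟩ := heckeInputsAlong_of_facts H N l
  exact Divisor.correspondence_mem_degZero _ _ hβ hα hFI D.2

theorem heckeOperatorAlong_comm (G : DegreeFacts L) (m : ℕ) [NeZero m] (hl : l.Prime)
    (hm : m.Prime) (x : Pic0 L (MF L N)) :
    heckeOperatorAlong L N l (heckeOperatorAlong L N m x)
      = heckeOperatorAlong L N m (heckeOperatorAlong L N l x) := by
  obtain ⟨D, rfl⟩ := Pic0.mk_surjective x
  haveI := H.principal (N * l)
  haveI := H.principal (N * m)
  have hal := alphaBarIntegral_of_facts H N l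
  have hbl := betaBarIntegral_of_facts H N l
  have ham := alphaBarIntegral_of_facts H N m
  have hbm := betaBarIntegral_of_facts H N m
  have h1 := heckeDivBar_mem_degZero H N m ham hbm D
  have h2 := heckeDivBar_mem_degZero H N l hal hbl D
  rw [heckeOperatorAlong_mk H N m D ham hbm h1, heckeOperatorAlong_mk H N l D hal hbl h2,
    heckeOperatorAlong_mk H N l _ hal hbl (heckeDivBar_mem_degZero H N l hal hbl ⟨_, h1⟩),
    heckeOperatorAlong_mk H N m _ ham hbm (heckeDivBar_mem_degZero H N m ham hbm ⟨_, h2⟩)]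
  exact congrArg Pic0.mk (Subtype.ext (heckeDivBar_comm H G hl hm hal hbl ham hbm _))

end General

section Galois

variable {L : Type*} [Field L] [Algebra ℚ L]

theorem intertwines_degMap {M M' : ℕ} (d : ℕ) [NeZero d] (h : M * d ∣ M') (σ : L ≃ₐ[ℚ] L) :
    SemilinearAut.IntertwinesAlong (degMap L d h).toRingHom
      (arithmeticGalois (modularFunctionFieldFull M) σ)
      (arithmeticGalois (modularFunctionFieldFull M') σ) := fun x => by
  refine Subtype.ext ?_
  show coeffMap (σ : L →+* L) (qExpand L d (x : LaurentSeries L))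
    = qExpand L d (coeffMap (σ : L →+* L) (x : LaurentSeries L))
  ext k
  by_cases hk : (d : ℤ) ∣ k
  · obtain ⟨m, rfl⟩ := hk
    rw [coeffMap_coeff, qExpand_coeff_mul, qExpand_coeff_mul, coeffMap_coeff]
  · rw [coeffMap_coeff, qExpand_coeff_of_not_dvd d _ hk, qExpand_coeff_of_not_dvd d _ hk,
      map_zero]

theorem heckeDivBar_smul (H : LevelFacts L) (N l : ℕ) [NeZero N] [NeZero l]
    [HasPrincipalDivisors L (MF L (N * l))]
    (hα : HeckeAlphaBarIntegral L N l) (hβ : HeckeBetaBarIntegral L N l) (σ : L ≃ₐ[ℚ] L)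
    (D : Divisor L (MF L N)) :
    heckeDivBar hα hβ (arithmeticGalois (modularFunctionFieldFull N) σ • D)
      = arithmeticGalois (modularFunctionFieldFull N) σ • heckeDivBar hα hβ D := by
  have h : N * 1 ∣ N * l := mul_dvd_mul_left N (one_dvd l)
  rw [heckeDivBar_eq H N l hα hβ h, heckeDivBar_eq H N l hα hβ h,
    pullbackAlong_smul (degMap L l dvd_rfl) (H.integral l dvd_rfl) (intertwines_degMap l dvd_rfl σ),
    pushforwardAlong_smul (degMap L 1 h) (H.integral 1 h) (intertwines_degMap 1 h σ)
      (H.deg_pos N)]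

theorem heckeOperatorAlong_smul (H : LevelFacts L) (N l : ℕ) [NeZero N] [NeZero l]
    (σ : L ≃ₐ[ℚ] L) (x : Pic0 L (MF L N)) :
    heckeOperatorAlong L N l (σ • x) = σ • heckeOperatorAlong L N l x := by
  obtain ⟨D, rfl⟩ := Pic0.mk_surjective x
  haveI := H.principal (N * l)
  have hα := alphaBarIntegral_of_facts H N l
  have hβ := betaBarIntegral_of_facts H N l
  rw [galois_smul_pic0_def, galois_smul_pic0_def, SemilinearAut.pic0_smul_mk,
    heckeOperatorAlong_mk H N l D hα hβ (heckeDivBar_mem_degZero H N l hα hβ D),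
    heckeOperatorAlong_mk H N l _ hα hβ (heckeDivBar_mem_degZero H N l hα hβ _),
    SemilinearAut.pic0_smul_mk]
  exact congrArg Pic0.mk (Subtype.ext (heckeDivBar_smul H N l hα hβ σ _))

end Galois

section Bar

variable (N : ℕ) [NeZero N]

theorem heckeOperatorsCommuteBar_of_facts (H : LevelFacts (AlgebraicClosure ℚ))
    (G : DegreeFacts (AlgebraicClosure ℚ)) : HeckeOperatorsCommuteBar N := by
  intro l m
  haveI : NeZero (l : ℕ) := ⟨l.2.ne_zero⟩
  haveI : NeZero (m : ℕ) := ⟨m.2.ne_zero⟩
  refine LinearMap.ext fun x => ?_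
  exact heckeOperatorAlong_comm H N l G m l.2 m.2 x

theorem heckeOperatorBar_galois_smul_of_facts (H : LevelFacts (AlgebraicClosure ℚ))
    (l : Nat.Primes) (σ : AlgebraicClosure ℚ ≃ₐ[ℚ] AlgebraicClosure ℚ) (x : JZero N) :
    heckeOperatorBar N l (σ • x) = σ • heckeOperatorBar N l x :=
  haveI : NeZero (l : ℕ) := ⟨l.2.ne_zero⟩
  heckeOperatorAlong_smul H N l σ x

theorem smulCommClass_heckeModuleBar_of_facts (H : LevelFacts (AlgebraicClosure ℚ)) :
    letI := heckeModuleBar N
    SMulCommClass (AlgebraicClosure ℚ ≃ₐ[ℚ] AlgebraicClosure ℚ) HeckeAlg (JZero N) := by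
  letI := heckeModuleBar N
  refine ⟨fun σ t x => ?_⟩
  by_cases hc : HeckeOperatorsCommuteBar N
  · simp only [heckeModuleBar_smul_def hc]
    induction t using MvPolynomial.induction_on generalizing x with
    | C a =>
        rw [heckeEvalBar_C, Module.End.intCast_apply, Module.End.intCast_apply]
        exact map_zsmul (DistribSMul.toAddMonoidHom (JZero N) σ) a x
    | add p q hp hq =>
        rw [map_add, LinearMap.add_apply, LinearMap.add_apply, smul_add, hp, hq]
    | mul_X p i hp =>
        rw [map_mul, Module.End.mul_apply, Module.End.mul_apply,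
          show MvPolynomial.X i = heckeGen i from rfl, heckeEvalBar_heckeGen, hp,
          heckeOperatorBar_galois_smul_of_facts N H]
  · simp only [heckeModuleBar_smul_of_not hc]
    exact map_zsmul (DistribSMul.toAddMonoidHom (JZero N) σ) _ x

end Bar

end FLTAgent.Hecke
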