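import Fermat.Agent.Hecke.DegMaps
import Fermat.Agent.Hecke.PsiMul

/-!
Composition of Hecke correspondences: two of them at distinct primes commute.
The facts about the function fields that are needed are collected in `LevelFacts`.
-/

set_option autoImplicit false
set_option linter.style.haveILetI false

noncomputable section

namespace FLTAgent.Hecke

open AlgebraicCurve ModularCurve

variable (L : Type*) [Field L] [Algebra ℚ L]

/-- The facts about the fields `F_M` used by the formal theory of Hecke correspondences. -/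
structure LevelFacts : Prop where
  principal : ∀ (M : ℕ) [NeZero M], HasPrincipalDivisors L (MF L M)
  deg_pos : ∀ (M : ℕ) [NeZero M] (v : Place L (MF L M)), 0 < v.deg
  finite : ∀ (M M' : ℕ) [NeZero M] [NeZero M'] (d : ℕ) [NeZero d] (h : M * d ∣ M'),
    FiniteAlong L (degMap L d h)
  fundamental : ∀ (M M' : ℕ) [NeZero M] [NeZero M'] (d : ℕ) [NeZero d] (h : M * d ∣ M')
    [HasPrincipalDivisors L (MF L M')] (hi : (degMap L d h).toRingHom.IsIntegral),
    FundamentalIdentityAlong L (degMap L d h) hi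
  norm : ∀ (M M' : ℕ) [NeZero M] [NeZero M'] (d : ℕ) [NeZero d] (h : M * d ∣ M')
    (hf : FiniteAlong L (degMap L d h)), NormFormulaAlong L (degMap L d h) hf

/-- The two facts on generators and degrees used for commutation. -/
structure DegreeFacts : Prop where
  gen : ∀ (M : ℕ) [NeZero M], MF L M = modularFunctionFieldC L M
  degree : ∀ (M : ℕ) [NeZero M],
    finrankAlong L (degMap L 1 (by simp : 1 * 1 ∣ M)) = dedekindPsi M

variable {L}

omit [Algebra ℚ L] in
theorem integral_of_finiteAlong {F E : Type*} [Field F] [Field E] [Algebra L F] [Algebra L E]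
    (φ : F →ₐ[L] E) (h : FiniteAlong L φ) : φ.toRingHom.IsIntegral := by
  letI := algebraAlong φ
  haveI : Module.Finite F E := h
  exact fun x => IsIntegral.of_finite F x

theorem LevelFacts.integral (H : LevelFacts L) {M M' : ℕ} [NeZero M] [NeZero M'] (d : ℕ) [NeZero d]
    (h : M * d ∣ M') : (degMap L d h).toRingHom.IsIntegral :=
  integral_of_finiteAlong _ (H.finite M M' d h)

omit [Algebra ℚ L] in
theorem finrankAlong_comp {F A Z : Type*} [Field F] [Field A] [Field Z] [Algebra L F] [Algebra L A]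
    [Algebra L Z] (φ : F →ₐ[L] A) (ψ : A →ₐ[L] Z) :
    finrankAlong L (ψ.comp φ) = finrankAlong L φ * finrankAlong L ψ := by
  letI := algebraAlong φ
  letI := algebraAlong ψ
  letI := algebraAlong (ψ.comp φ)
  haveI : IsScalarTower F A Z := IsScalarTower.of_algebraMap_eq fun _ => rfl
  exact (Module.finrank_mul_finrank F A Z).symm

theorem finrankAlong_degMap (H : DegreeFacts L) {M M' : ℕ} [NeZero M] [NeZero M']
    (h : M * 1 ∣ M') :
    dedekindPsi M * finrankAlong L (degMap L 1 h) = dedekindPsi M' := by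
  rw [← H.degree M, ← H.degree M', ← finrankAlong_comp,
    degMap_comp L 1 1 1 _ _ (by simp : 1 * 1 ∣ M') (mul_one 1)]

/-- `F_Z` is generated over the image of `F_A` by the image of `F_B`, if `j(q^(Z))` comes from `B`. -/
theorem adjoin_range_degMap (H : LevelFacts L) (G : DegreeFacts L) {A B Z : ℕ} [NeZero A]
    [NeZero B] [NeZero Z] (d : ℕ) [NeZero d] (hA : A * 1 ∣ Z) (hB : B * d ∣ Z) (hZ : Z = d * B) :
    letI := algebraAlong (degMap L 1 hA)
    Algebra.adjoin (MF L A) (Set.range (degMap L d hB)) = ⊤ := by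
  letI := algebraAlong (degMap L 1 hA)
  set S := Algebra.adjoin (MF L A) (Set.range (degMap L d hB)) with hS
  haveI : Module.Finite (MF L A) (MF L Z) := H.finite A Z 1 hA
  haveI : Algebra.IsAlgebraic (MF L A) (MF L Z) := Algebra.IsAlgebraic.of_finite _ _
  -- `S` is a field containing `L` and both generators
  have hL : ∀ a : L, algebraMap L (MF L Z) a ∈ S := fun a => by
    rw [← (degMap L 1 hA).commutes a]
    exact S.algebraMap_mem _
  have hinv : ∀ x ∈ S, x⁻¹ ∈ S := fun x hx =>
    Subalgebra.inv_mem_of_algebraic S (x := ⟨x, hx⟩) (Algebra.IsAlgebraic.isAlgebraic x)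
  let T : IntermediateField L (MF L Z) :=
    { S.toSubsemiring with
      algebraMap_mem' := hL
      inv_mem' := hinv }
  let T' : IntermediateField L (LaurentSeries L) := T.map (MF L Z).val
  have hle : MF L Z ≤ T' := by
    rw [G.gen Z, modularFunctionFieldC, IntermediateField.adjoin_le_iff, Set.pair_subset_iff]
    constructor
    · refine ⟨⟨jqModC L, ?_⟩, ?_, rfl⟩
      · rw [← jd_one]; exact jd_mem L (one_dvd Z)
      · show _ ∈ S
        have h0 := S.algebraMap_mem ⟨jd L 1, jd_mem L (one_dvd A)⟩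
        have e : algebraMap (MF L A) (MF L Z) ⟨jd L 1, jd_mem L (one_dvd A)⟩
            = ⟨jqModC L, by rw [← jd_one]; exact jd_mem L (one_dvd Z)⟩ := by
          refine Subtype.ext ?_
          show qExpand L 1 (jd L 1) = jqModC L
          rw [qExpand_one_apply, jd_one]
        rwa [e] at h0
    · refine ⟨⟨jd L Z, jd_mem L dvd_rfl⟩, ?_, rfl⟩
      show _ ∈ S
      refine Algebra.subset_adjoin ⟨⟨jd L B, jd_mem L dvd_rfl⟩, Subtype.ext ?_⟩
      show qExpand L d (jd L B) = jd L Z
      rw [jd, jd, qExpand_qExpand]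
      symm
      exact qExpand_congr hZ _
  refine eq_top_iff.mpr fun z _ => ?_
  obtain ⟨y, hy, hyz⟩ := hle z.2
  rwa [← Subtype.ext hyz]

variable (H : LevelFacts L) (G : DegreeFacts L)

/-- The divisor level correspondence of `T_l` in terms of degeneracy maps. -/
theorem heckeDivBar_eq (N l : ℕ) [NeZero N] [NeZero l] [HasPrincipalDivisors L (MF L (N * l))]
    (hα : HeckeAlphaBarIntegral L N l) (hβ : HeckeBetaBarIntegral L N l) (h : N * 1 ∣ N * l)
    (D : Divisor L (MF L N)) :
    heckeDivBar hα hβ D = Divisor.pushforwardAlong (degMap L 1 h) (H.integral 1 h)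
      (Divisor.pullbackAlong (degMap L l dvd_rfl) (H.integral l dvd_rfl) D) := by
  show Divisor.pushforwardAlong (heckeAlphaBar L N l) hα
    (Divisor.pullbackAlong (heckeBetaBar L N l) hβ D) = _
  rw [pullbackAlong_congr (heckeBetaBar_eq_degMap L N l) hβ (H.integral l dvd_rfl),
    pushforwardAlong_congr (heckeAlphaBar_eq_degMap L N l) hα (H.integral 1 h)]

include H G

theorem heckeDivBar_comp {N l m Z : ℕ} [NeZero N] [NeZero l] [NeZero m] [NeZero Z]
    (hl : l.Prime) (hm : m.Prime) (hne : l ≠ m) (hZ : Z = N * l * m)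
    [HasPrincipalDivisors L (MF L N)] [HasPrincipalDivisors L (MF L (N * l))]
    [HasPrincipalDivisors L (MF L (N * m))] [HasPrincipalDivisors L (MF L Z)]
    (hαl : HeckeAlphaBarIntegral L N l) (hβl : HeckeBetaBarIntegral L N l)
    (hαm : HeckeAlphaBarIntegral L N m) (hβm : HeckeBetaBarIntegral L N m)
    (h1 : N * 1 ∣ Z) (hlm : N * (l * m) ∣ Z) (D : Divisor L (MF L N)) :
    heckeDivBar hαl hβl (heckeDivBar hαm hβm D)
      = Divisor.pushforwardAlong (degMap L 1 h1) (H.integral 1 h1)
          (Divisor.pullbackAlong (degMap L (l * m) hlm) (H.integral (l * m) hlm) D) := by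
  have hl1 : N * 1 ∣ N * l := mul_dvd_mul_left N (one_dvd l)
  have hm1 : N * 1 ∣ N * m := mul_dvd_mul_left N (one_dvd m)
  have hA : N * l * 1 ∣ Z := ⟨m, by rw [hZ]; ring⟩
  have hB : N * m * l ∣ Z := ⟨1, by rw [hZ]; ring⟩
  have hrank : finrankAlong L (degMap L 1 hA) = finrankAlong L (degMap L 1 hm1) := by
    have e1 := finrankAlong_degMap G hA
    have e2 := finrankAlong_degMap G hm1
    have e3 := dedekindPsi_mul_mul (NeZero.ne N) hl hm hne
    rw [← hZ, ← e1, ← e2] at e3
    have h1' : 0 < dedekindPsi (N * l) := dedekindPsi_pos (NeZero.ne _)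
    have h2' : 0 < dedekindPsi N := dedekindPsi_pos (NeZero.ne N)
    apply mul_left_cancel₀ (mul_pos h1' h2').ne'
    linarith [e3]
  have hcomm : ∀ x, degMap L 1 hA (degMap L l dvd_rfl x) = degMap L l hB (degMap L 1 hm1 x) :=
    degMap_comm L l 1 1 l _ _ _ _ (by ring)
  have hnorm := normAlong_baseChange (degMap L l dvd_rfl) (degMap L 1 hm1) (degMap L l hB)
    (degMap L 1 hA) hcomm (H.finite _ _ 1 hm1) hrank
    (adjoin_range_degMap H G l hA hB (by rw [hZ]; ring))
  rw [heckeDivBar_eq H N l hαl hβl hl1, heckeDivBar_eq H N m hαm hβm hm1,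
    pullbackAlong_pushforwardAlong (degMap L l dvd_rfl) (degMap L 1 hm1) (degMap L l hB)
      (degMap L 1 hA) hcomm (H.integral l _) (H.integral 1 _) (H.integral l hB) (H.integral 1 hA)
      (H.finite _ _ 1 hm1) (H.norm _ _ 1 hm1 _) (H.finite _ _ 1 hA) (H.norm _ _ 1 hA _) hnorm,
    ← pushforwardAlong_comp (degMap L 1 hl1) (degMap L 1 hA) (H.deg_pos N) (H.integral 1 hl1)
      (H.integral 1 hA) (isIntegral_comp (H.integral 1 hl1) (H.integral 1 hA)),
    ← pullbackAlong_comp (degMap L m dvd_rfl) (degMap L l hB) (H.integral m dvd_rfl)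
      (H.integral l hB) (isIntegral_comp (H.integral m dvd_rfl) (H.integral l hB)),
    pushforwardAlong_congr (degMap_comp L 1 1 1 hl1 hA h1 (mul_one 1)) _ (H.integral 1 h1),
    pullbackAlong_congr (degMap_comp L m l (l * m) dvd_rfl hB hlm rfl) _ (H.integral (l * m) hlm)]

theorem heckeDivBar_comm {N l m : ℕ} [NeZero N] [NeZero l] [NeZero m]
    (hl : l.Prime) (hm : m.Prime) [HasPrincipalDivisors L (MF L (N * l))]
    [HasPrincipalDivisors L (MF L (N * m))]
    (hαl : HeckeAlphaBarIntegral L N l) (hβl : HeckeBetaBarIntegral L N l)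
    (hαm : HeckeAlphaBarIntegral L N m) (hβm : HeckeBetaBarIntegral L N m)
    (D : Divisor L (MF L N)) :
    heckeDivBar hαl hβl (heckeDivBar hαm hβm D) = heckeDivBar hαm hβm (heckeDivBar hαl hβl D) := by
  rcases eq_or_ne l m with rfl | hne
  · rfl
  haveI := H.principal N
  haveI := H.principal (N * l * m)
  have h1 : N * 1 ∣ N * l * m := ⟨l * m, by ring⟩
  have hlm : N * (l * m) ∣ N * l * m := ⟨1, by ring⟩
  have hml : N * (m * l) ∣ N * l * m := ⟨1, by ring⟩
  rw [heckeDivBar_comp H G hl hm hne rfl hαl hβl hαm hβm h1 hlm,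
    heckeDivBar_comp H G hm hl hne.symm (mul_right_comm N l m) hαm hβm hαl hβl h1 hml,
    pullbackAlong_congr (φ := degMap L (l * m) hlm) (φ' := degMap L (m * l) hml) ?_ _
      (H.integral (m * l) hml)]
  exact AlgHom.ext fun x => Subtype.ext (qExpand_congr (mul_comm l m) _)

end FLTAgent.Hecke
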