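import Fermat.Agent.Hecke.Compose
import Mathlib.FieldTheory.IntermediateField.Adjoin.Algebra

/-!
`DegreeFacts` from generation and the degree of the modular polynomial over `L(j)`.
-/

set_option autoImplicit false
set_option linter.style.haveILetI false

noncomputable section

namespace FLTAgent.Hecke

open AlgebraicCurve ModularCurve IntermediateField

variable {L : Type*} [Field L] [Algebra ℚ L]

omit [Algebra ℚ L] in
/-- An inclusion of subfields has the degree of the corresponding extension. -/
theorem finrankAlong_eq_of_coe {E₀ E : IntermediateField L (LaurentSeries L)}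
    (φ : E₀ →ₐ[L] E) (hφ : ∀ x, (φ x : LaurentSeries L) = (x : LaurentSeries L))
    {K₀ : IntermediateField L (LaurentSeries L)} (K₁ : IntermediateField K₀ (LaurentSeries L))
    (h₀ : E₀ = K₀) (h : E = K₁.restrictScalars L) :
    finrankAlong L φ = Module.finrank K₀ K₁ := by
  subst h₀ h
  letI := algebraAlong φ
  let j : (K₁.restrictScalars L : IntermediateField L (LaurentSeries L)) ≃+* K₁ :=
    { toFun := fun x => ⟨x.1, x.2⟩
      invFun := fun x => ⟨x.1, x.2⟩
      map_mul' := fun _ _ => rfl
      map_add' := fun _ _ => rfl }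
  refine Algebra.finrank_eq_of_equiv_equiv (RingEquiv.refl E₀) j ?_
  refine RingHom.ext fun x => Subtype.ext ?_
  exact (hφ x).symm

theorem finrankAlong_one_to (gen : ∀ (M : ℕ) [NeZero M], MF L M = modularFunctionFieldC L M)
    (M : ℕ) [NeZero M] (hint : IsIntegral L⟮jqModC L⟯ (jqNModC L M)) :
    finrankAlong L (degMap L 1 (by simp : 1 * 1 ∣ M))
      = (minpoly L⟮jqModC L⟯ (jqNModC L M)).natDegree := by
  rw [← IntermediateField.adjoin.finrank hint]
  refine finrankAlong_eq_of_coe _ (fun x => ?_) _ ?_ ?_
  · rw [coe_degMap, qExpand_one_apply]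
  · rw [gen 1, modularFunctionFieldC_one]
  · rw [gen M, modularFunctionFieldC, adjoin_adjoin_left]
    congr 1

theorem degreeFacts_of_minpoly (gen : ∀ (M : ℕ) [NeZero M], MF L M = modularFunctionFieldC L M)
    (hint : ∀ (M : ℕ) [NeZero M], IsIntegral L⟮jqModC L⟯ (jqNModC L M))
    (hdeg : ∀ (M : ℕ) [NeZero M],
      (minpoly L⟮jqModC L⟯ (jqNModC L M)).natDegree = dedekindPsi M) :
    DegreeFacts L :=
  ⟨gen, fun M _ => (finrankAlong_one_to gen M (hint M)).trans (hdeg M)⟩

end FLTAgent.Hecke
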