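import Fermat.Agent.Hecke.DegMaps
import Fermat.Agent.FunctionField.Principal
import Mathlib.FieldTheory.IntermediateField.Adjoin.Algebra

/-!
The fields `F_M` are function fields of one variable, given modular polynomials for all levels.
-/

set_option autoImplicit false
set_option linter.style.haveILetI false

noncomputable section

namespace FLTAgent.Hecke

open AlgebraicCurve ModularCurve IntermediateField FLTAgent.FunctionField

variable (L : Type*) [Field L] [Algebra ℚ L]

/-- `j` as an element of `F_M`. -/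
def jMF (M : ℕ) : MF L M := ⟨jqModC L, by rw [← jd_one]; exact jd_mem L (one_dvd M)⟩

theorem jMF_coe (M : ℕ) : (jMF L M : LaurentSeries L) = jqModC L := rfl

theorem transcendental_jMF (M : ℕ) : Transcendental L (jMF L M) := by
  rw [← transcendental_algebraMap_iff (A := LaurentSeries L) Subtype.val_injective]
  show Transcendental L (jqModC L)
  rw [← jd_one]
  exact transcendental_jd L 1

theorem isIntegral_jd_of_data {M d : ℕ} [NeZero d] (data : ModularPolynomialData d)
    (h : d ∣ M) : IsIntegral L⟮jMF L M⟯ (⟨jd L d, jd_mem L h⟩ : MF L M) := by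
  let jj : L⟮jMF L M⟯ := ⟨jMF L M, mem_adjoin_simple_self L _⟩
  refine ⟨data.Φ.map (Polynomial.eval₂RingHom (Int.castRingHom _) jj), data.monic.map _, ?_⟩
  rw [Polynomial.eval₂_map]
  apply Subtype.val_injective
  show ((MF L M).val : MF L M →+* LaurentSeries L) _ = 0
  rw [Polynomial.hom_eval₂]
  have key := congrArg (coeffEmb L) data.eval_eq_zero
  rw [map_zero, Polynomial.hom_eval₂, jqN, coeffEmb_qExpand, coeffEmb_jq] at key
  refine Eq.trans ?_ key
  refine congrArg (fun f => Polynomial.eval₂ f (jd L d) data.Φ) ?_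
  refine Polynomial.ringHom_ext' (Subsingleton.elim _ _) ?_
  rw [RingHom.comp_apply, RingHom.comp_apply, RingHom.comp_apply, Polynomial.coe_eval₂RingHom,
    Polynomial.eval₂_X, evalAtJ_X, coeffEmb_jq]
  rfl

omit [Algebra ℚ L] in
/-- Finitely many elements algebraic over `L⟮x⟯` generate a function field. -/
theorem isFunctionField_of_generators {F : Type*} [Field F] [Algebra L F] {x : F}
    (hx : Transcendental L x) (S : Set F) [Finite S]
    (hint : ∀ y ∈ S, IsIntegral L⟮x⟯ y) (hgen : IntermediateField.adjoin L S = ⊤) :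
    IsFunctionField L F := by
  refine ⟨⟨x, hx, ?_⟩⟩
  haveI : FiniteDimensional L⟮x⟯ (adjoin L⟮x⟯ S) :=
    IntermediateField.finiteDimensional_adjoin hint
  have htop : adjoin L⟮x⟯ S = ⊤ := by
    refine eq_top_iff.mpr fun z _ => ?_
    have hle : IntermediateField.adjoin L S ≤ (adjoin L⟮x⟯ S).restrictScalars L :=
      adjoin_le_iff.mpr (subset_adjoin _ _)
    exact hle (hgen.symm ▸ mem_top)
  exact Module.Finite.equiv
    ((IntermediateField.equivOfEq htop).trans IntermediateField.topEquiv).toLinearEquiv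

theorem isFunctionField_MF (hdata : ∀ (d : ℕ) [NeZero d], Nonempty (ModularPolynomialData d))
    (M : ℕ) [NeZero M] : IsFunctionField L (MF L M) := by
  let g : {d : ℕ // d ∈ M.divisors} → MF L M := fun d =>
    haveI : NeZero d.1 := ⟨(Nat.pos_of_mem_divisors d.2).ne'⟩
    ⟨jd L d.1, jd_mem L (Nat.dvd_of_mem_divisors d.2)⟩
  haveI : Finite (Set.range g) := (Set.finite_range g).to_subtype
  refine isFunctionField_of_generators L (transcendental_jMF L M) (Set.range g) ?_ ?_
  · rintro _ ⟨⟨d, hd⟩, rfl⟩
    haveI : NeZero d := ⟨(Nat.pos_of_mem_divisors hd).ne'⟩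
    exact isIntegral_jd_of_data L (hdata d).some (Nat.dvd_of_mem_divisors hd)
  · refine eq_top_iff.mpr fun z _ => ?_
    have hle : MF L M ≤ (IntermediateField.adjoin L (Set.range g)).map (MF L M).val := by
      refine MF_le_iff L fun d hd hdM => ?_
      exact ⟨g ⟨d, Nat.mem_divisors.mpr ⟨hdM, NeZero.ne M⟩⟩, subset_adjoin _ _ ⟨_, rfl⟩, rfl⟩
    obtain ⟨y, hy, hyz⟩ := hle z.2
    rwa [← Subtype.ext hyz]

end FLTAgent.Hecke
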