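import Fermat.Agent.Hecke.Operators
import Fermat.Agent.Hecke.LevelField
import Fermat.Agent.FunctionField.NormFormula

/-!
`LevelFacts` from the general theory of function fields of one variable.
-/

set_option autoImplicit false
set_option linter.style.haveILetI false

noncomputable section

namespace FLTAgent.Hecke

open AlgebraicCurve ModularCurve FLTAgent.FunctionField

variable {L : Type*} [Field L] [Algebra ℚ L]

/-- `LevelFacts` from the modular polynomials. -/
theorem levelFacts_of_data (hdata : ∀ (d : ℕ) [NeZero d], Nonempty (ModularPolynomialData d)) :
    LevelFacts L where
  principal M _ := by haveI := isFunctionField_MF L hdata M; infer_instance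
  deg_pos M _ v := by haveI := isFunctionField_MF L hdata M; exact deg_pos v
  finite M M' _ _ d _ h := by
    haveI := isFunctionField_MF L hdata M
    haveI := isFunctionField_MF L hdata M'
    exact finiteAlong_of_isFunctionField _
  fundamental M M' _ _ d _ h inst hi := by
    haveI := isFunctionField_MF L hdata M
    haveI := isFunctionField_MF L hdata M'
    exact fundamentalIdentityAlong (degMap L d h) hi
  norm M M' _ _ d _ h hf := by
    haveI := isFunctionField_MF L hdata M
    haveI := isFunctionField_MF L hdata M'
    exact normFormulaAlong (degMap L d h) hf

end FLTAgent.Hecke
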