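import Fermat.Agent.ModPoly.Rational
import Fermat.Agent.Hecke.Degree
import Fermat.Agent.Hecke.Facts

/-!
The degree of `j(q^M)` over `L(j)` is `ψ(M)`.
-/

set_option autoImplicit false
set_option linter.style.haveILetI false

noncomputable section

namespace FLTAgent.Hecke

open AlgebraicCurve ModularCurve IntermediateField Polynomial

variable (L : Type*) [Field L] [Algebra ℚ L] (M : ℕ) [NeZero M]

theorem isIntegral_jqNModC : IsIntegral L⟮jqModC L⟯ (jqNModC L M) := by
  let jj : L⟮jqModC L⟯ := ⟨jqModC L, mem_adjoin_simple_self L _⟩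
  refine ⟨(ModPoly.phiK M L).map (Polynomial.aeval jj : L[X] →ₐ[L] L⟮jqModC L⟯).toRingHom,
    (ModPoly.phiK_monic M L).map _, ?_⟩
  rw [Polynomial.eval₂_map, ← ModPoly.ev2_phiK M L, ModPoly.ev2_apply]
  refine congrArg (fun f => Polynomial.eval₂ f (jqNModC L M) (ModPoly.phiK M L)) ?_
  refine Polynomial.ringHom_ext (fun a => ?_) ?_ <;> simp [jj]

theorem natDegree_minpoly_jqNModC :
    (minpoly L⟮jqModC L⟯ (jqNModC L M)).natDegree = dedekindPsi M := by
  have hint := isIntegral_jqNModC L M
  refine le_antisymm ?_ ?_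
  · let jj : L⟮jqModC L⟯ := ⟨jqModC L, mem_adjoin_simple_self L _⟩
    set Q := (ModPoly.phiK M L).map (Polynomial.aeval jj : L[X] →ₐ[L] L⟮jqModC L⟯).toRingHom with hQ
    have hQ0 : Polynomial.aeval (jqNModC L M) Q = 0 := by
      rw [Polynomial.aeval_def, hQ, Polynomial.eval₂_map, ← ModPoly.ev2_phiK M L, ModPoly.ev2_apply]
      refine congrArg (fun f => Polynomial.eval₂ f (jqNModC L M) (ModPoly.phiK M L)) ?_
      refine Polynomial.ringHom_ext (fun a => ?_) ?_ <;> simp [jj]
    have hle := Polynomial.natDegree_le_of_dvd (minpoly.dvd _ _ hQ0)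
      ((ModPoly.phiK_monic M L).map _).ne_zero
    exact hle.trans (natDegree_map_le.trans (ModPoly.natDegree_phiK M L).le)
  · by_contra hlt
    rw [not_le] at hlt
    set m := minpoly L⟮jqModC L⟯ (jqNModC L M) with hm
    have hrs : ∀ i : ℕ, ∃ r s : L[X], Polynomial.aeval (jqModC L) s ≠ 0 ∧
        ((m.coeff i : L⟮jqModC L⟯) : LaurentSeries L)
          = Polynomial.aeval (jqModC L) r / Polynomial.aeval (jqModC L) s := by
      intro i
      obtain ⟨r, s, hrs⟩ := (mem_adjoin_simple_iff L _).mp (m.coeff i).2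
      rcases eq_or_ne (Polynomial.aeval (jqModC L) s) 0 with h0 | h0
      · exact ⟨0, 1, by simp, by rw [hrs, h0]; simp⟩
      · exact ⟨r, s, h0, hrs⟩
    choose r s hs hrs using hrs
    classical
    set I := Finset.range (m.natDegree + 1) with hI
    let P : L[X][X] := ∑ i ∈ I, monomial i (r i * ∏ k ∈ I.erase i, s k)
    have hden : Polynomial.aeval (jqModC L) (∏ k ∈ I, s k) ≠ 0 := by
      rw [map_prod]; exact Finset.prod_ne_zero_iff.mpr fun k _ => hs k
    have hcoef : ∀ i ∈ I, Polynomial.aeval (jqModC L) (r i * ∏ k ∈ I.erase i, s k)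
        = ((m.coeff i : L⟮jqModC L⟯) : LaurentSeries L)
          * Polynomial.aeval (jqModC L) (∏ k ∈ I, s k) := by
      intro i hi
      rw [map_mul, hrs i, ← Finset.mul_prod_erase I s hi, map_mul, ← mul_assoc,
        div_mul_cancel₀ _ (hs i)]
    have hP : ModPoly.ev2 (jqModC L) (jqNModC L M) P = 0 := by
      have h0 := minpoly.aeval L⟮jqModC L⟯ (jqNModC L M)
      rw [← hm, Polynomial.aeval_eq_sum_range, ← hI] at h0
      have : ModPoly.ev2 (jqModC L) (jqNModC L M) P
          = Polynomial.aeval (jqModC L) (∏ k ∈ I, s k)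
            * ∑ i ∈ I, m.coeff i • jqNModC L M ^ i := by
        simp only [P, map_sum, Finset.mul_sum, ModPoly.ev2_apply, Polynomial.eval₂_monomial,
          RingHom.coe_coe]
        refine Finset.sum_congr rfl fun i hi => ?_
        rw [hcoef i hi, IntermediateField.smul_def, smul_eq_mul]
        ring
      rw [this, h0, mul_zero]
    have hdeg : P.natDegree < dedekindPsi M :=
      lt_of_le_of_lt (natDegree_sum_le_of_forall_le _ _ fun i hi =>
        (natDegree_monomial_le _).trans (Nat.lt_succ_iff.mp (Finset.mem_range.mp hi))) hlt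
    have hzero := ModPoly.eq_zero_of_ev2_eq_zero M hdeg hP
    have htop : m.natDegree ∈ I := Finset.self_mem_range_succ _
    have h1 := congrArg (fun p => Polynomial.aeval (jqModC L) (p.coeff m.natDegree)) hzero
    simp only [P, finsetSum_coeff, coeff_monomial, Finset.sum_ite_eq', htop, if_true,
      coeff_zero, map_zero] at h1
    rw [hcoef _ htop, Polynomial.coeff_natDegree, (minpoly.monic hint).leadingCoeff] at h1
    exact hden (by simpa using h1)

end FLTAgent.Hecke
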