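import Fermat.Agent.Hecke.Inputs
import Fermat.Agent.Hecke.MinDegree

/-!
Commutation of the Hecke operators from generation of the function fields by `j` and `j_N`.
-/

set_option autoImplicit false
set_option linter.style.haveILetI false

noncomputable section

namespace FLTAgent.Hecke

open AlgebraicCurve ModularCurve IntermediateField

variable (L : Type*) [Field L] [Algebra ℚ L]

theorem MF_eq_of_generation {M : ℕ} [NeZero M] (h : FunctionFieldGeneration M) :
    MF L M = modularFunctionFieldC L M := by
  refine le_antisymm (MF_le_iff L fun d hd hdM => ?_) ?_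
  · have hmem := h d hdM hd
    have hle : (IntermediateField.adjoin ℚ {jq, qExpand ℚ M jq}).toSubfield
        ≤ (modularFunctionFieldC L M).toSubfield.comap (coeffEmb L) := by
      rw [IntermediateField.adjoin_toSubfield, Subfield.closure_le]
      rintro x (⟨a, rfl⟩ | rfl | rfl)
      · show coeffEmb L (algebraMap ℚ (LaurentSeries ℚ) a) ∈ modularFunctionFieldC L M
        rw [show coeffEmb L (algebraMap ℚ (LaurentSeries ℚ) a)
            = algebraMap L (LaurentSeries L) (algebraMap ℚ L a) by
          rw [algebraMap_apply_eq_single, algebraMap_laurentSeries_eq_single, coeffEmb,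
            coeffMap_single]]
        exact IntermediateField.algebraMap_mem _ _
      · show coeffEmb L jq ∈ modularFunctionFieldC L M
        rw [coeffEmb_jq]
        exact jqModC_mem L M
      · show coeffEmb L (qExpand ℚ M jq) ∈ modularFunctionFieldC L M
        rw [coeffEmb_qExpand, coeffEmb_jq]
        exact jqNModC_mem L M
    have h2 : coeffEmb L (qExpand ℚ d jq) ∈ modularFunctionFieldC L M := hle hmem
    rwa [coeffEmb_qExpand, coeffEmb_jq] at h2
  · rw [modularFunctionFieldC, adjoin_le_iff, Set.pair_subset_iff]
    refine ⟨?_, jd_mem L dvd_rfl⟩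
    rw [← jd_one]
    exact jd_mem L (one_dvd M)

theorem degreeFacts_of_generation (h : ∀ (M : ℕ) [NeZero M], FunctionFieldGeneration M) :
    DegreeFacts L :=
  degreeFacts_of_minpoly (fun M _ => MF_eq_of_generation L (h M))
    (fun M _ => isIntegral_jqNModC L M) (fun M _ => natDegree_minpoly_jqNModC L M)

theorem heckeOperatorsCommuteBar_of_generation
    (h : ∀ (M : ℕ) [NeZero M], FunctionFieldGeneration M) (N : ℕ) [NeZero N] :
    HeckeOperatorsCommuteBar N :=
  heckeOperatorsCommuteBar_of_facts N (levelFacts _) (degreeFacts_of_generation _ h)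

end FLTAgent.Hecke
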